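/-
Cluster GAL, block NV2 (owner helper91).
The Kummer model `E.W N n` of block E has the same cardinality as `Pic⁰(X₀(N)/ℚ̄)[n]`.
-/
import Fermat.Agent.GAL.E.Defs
import Fermat.Agent.NV2.Abs.Kummer
import Fermat.Agent.S24.Export.Ramification

set_option autoImplicit false

namespace Fermat.Agent.NV2

open AlgebraicCurve Fermat.Agent.S24 Fermat.Agent.S24.FF Fermat.Agent.S27 Fermat.Agent.GAL

variable {N : ℕ} [NeZero N] {n : ℕ}

/-- The Kummer class `w` corresponds to the divisor class `c`. -/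
def KRel (N n : ℕ) (w : E.W N n) (c : Pic0 Kbar (FN N)) : Prop :=
  ∃ (u : E.kum N n) (D : Divisor Kbar (FN N)), Divisor.degree D = 0 ∧ E.cls u = w ∧ cls D = c ∧
    ∀ v : Place Kbar (FN N), v.ord (((u : (FN N)ˣ) : FN N)) = n * D v

theorem cls_eq_cls_iff_kum {u u' : E.kum N n} :
    E.cls u = E.cls u' ↔ ∃ s : (FN N)ˣ, (u' : (FN N)ˣ) = u * s ^ n := by
  have h1 : E.cls u = E.cls u' ↔
      (QuotientGroup.mk u : E.Wm N n) = QuotientGroup.mk u' := by
    unfold E.cls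
    exact Additive.ofMul.injective.eq_iff
  rw [h1, QuotientGroup.eq, Subgroup.mem_subgroupOf]
  constructor
  · rintro ⟨s, hs⟩
    refine ⟨s, ?_⟩
    have h2 : s ^ n = (u : (FN N)ˣ)⁻¹ * u' := by simpa using hs
    rw [h2, mul_inv_cancel_left]
  · rintro ⟨s, hs⟩
    refine ⟨s, ?_⟩
    show s ^ n = ((u⁻¹ * u' : E.kum N n) : (FN N)ˣ)
    rw [Subgroup.coe_mul, Subgroup.coe_inv, hs, inv_mul_cancel_left]

theorem KRel.exists_right (hn : 0 < n) (w : E.W N n) :
    ∃ c ∈ Pic0.torsion Kbar (FN N) n, KRel N n w c := by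
  have := Export.isFF1 N
  obtain ⟨u, rfl⟩ := E.cls_surjective w
  have hu0 : (((u : (FN N)ˣ) : FN N)) ≠ 0 := Units.ne_zero _
  obtain ⟨D0, hD0⟩ := exists_isDivOf (K := Kbar) (((u : (FN N)ˣ) : FN N)) hu0
  have hk : E.IsKum N n (((u : (FN N)ˣ) : FN N)) := u.2
  let D : Divisor Kbar (FN N) := D0.mapRange (fun a : ℤ => a / n) (by simp)
  have hDv : ∀ v, (n : ℤ) * D v = D0 v := by
    intro v
    show (n : ℤ) * (D0 v / n) = D0 v
    rw [hD0.2 v]
    exact Int.mul_ediv_cancel' (hk v)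
  have hnD : n • D = D0 := by
    ext v
    rw [Finsupp.smul_apply, nsmul_eq_mul, hDv]
  have hdeg : Divisor.degree D = 0 := by
    have h1 : Divisor.degree (n • D) = 0 := by rw [hnD]; exact hD0.degree
    rw [map_nsmul, nsmul_eq_mul] at h1
    rcases mul_eq_zero.mp h1 with h | h
    · exact absurd h (by exact_mod_cast hn.ne')
    · exact h
  refine ⟨cls D, ?_, u, D, hdeg, rfl, rfl, fun v => by rw [hDv, hD0.2 v]⟩
  rw [Pic0.mem_torsion, natCast_zsmul, ← cls_nsmul' hdeg, hnD,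
    cls_eq_zero_iff hD0.degree]
  exact ⟨_, hD0⟩

theorem KRel.unique_right (hn : 0 < n) {w : E.W N n} {c c' : Pic0 Kbar (FN N)}
    (h : KRel N n w c) (h' : KRel N n w c') : c = c' := by
  obtain ⟨u, D, hD, rfl, rfl, hu⟩ := h
  obtain ⟨u', D', hD', hw, rfl, hu'⟩ := h'
  obtain ⟨s, hs⟩ := cls_eq_cls_iff_kum.mp hw
  -- `u = u' * s ^ n`
  rw [cls_eq_cls_iff hD hD']
  refine ⟨(s : FN N), s.ne_zero, fun v => ?_⟩
  have h1 := hu v
  rw [hs, Units.val_mul, Units.val_pow_eq_pow_val, v.ord_mul (Units.ne_zero _)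
    (pow_ne_zero _ s.ne_zero), hu' v, FF.ord_pow] at h1
  have hn' : (n : ℤ) ≠ 0 := by exact_mod_cast hn.ne'
  have h2 : (n : ℤ) * (D v - D' v) = n * v.ord (s : FN N) := by linarith
  rw [Finsupp.sub_apply]
  exact mul_left_cancel₀ hn' h2

theorem KRel.exists_left (c : Pic0 Kbar (FN N)) (hc : c ∈ Pic0.torsion Kbar (FN N) n) :
    ∃ w : E.W N n, KRel N n w c := by
  obtain ⟨D, hD, rfl⟩ := cls_surjective c
  rw [Pic0.mem_torsion, natCast_zsmul, ← cls_nsmul' hD,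
    cls_eq_zero_iff (by rw [map_nsmul, hD, smul_zero])] at hc
  obtain ⟨f, hf, hfD⟩ := hc
  have hord : ∀ v : Place Kbar (FN N), v.ord f = n * D v := by
    intro v
    rw [← hfD v, Finsupp.smul_apply, nsmul_eq_mul]
  have hk : Units.mk0 f hf ∈ E.kum N n := fun v => by
    show (n : ℤ) ∣ v.ord f
    rw [hord v]
    exact dvd_mul_right _ _
  exact ⟨E.cls ⟨Units.mk0 f hf, hk⟩, ⟨Units.mk0 f hf, hk⟩, D, hD, rfl, rfl, hord⟩

theorem KRel.unique_left (hn : 0 < n) {w w' : E.W N n} {c : Pic0 Kbar (FN N)}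
    (h : KRel N n w c) (h' : KRel N n w' c) : w = w' := by
  have := Export.isFF1 N
  obtain ⟨u, D, hD, rfl, rfl, hu⟩ := h
  obtain ⟨u', D', hD', rfl, hc, hu'⟩ := h'
  rw [cls_eq_cls_iff hD' hD] at hc
  obtain ⟨s, hs0, hs⟩ := hc
  -- `D' - D = div s`
  rw [cls_eq_cls_iff_kum]
  set a : FN N := ((u' : (FN N)ˣ) : FN N) / (((u : (FN N)ˣ) : FN N) * s ^ n) with ha
  have hden : (((u : (FN N)ˣ) : FN N) * s ^ n) ≠ 0 :=
    mul_ne_zero (Units.ne_zero _) (pow_ne_zero _ hs0)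
  have hord : ∀ v : Place Kbar (FN N), v.ord a = 0 := by
    intro v
    have h1 := hs v
    rw [Finsupp.sub_apply] at h1
    rw [ha, div_eq_mul_inv, v.ord_mul (Units.ne_zero _) (inv_ne_zero hden), v.ord_inv,
      v.ord_mul (Units.ne_zero _) (pow_ne_zero _ hs0), FF.ord_pow, hu v, hu' v, ← h1]
    ring
  obtain ⟨a0, ha0⟩ := exists_const_of_forall_ord_eq_zero a hord
  obtain ⟨b, hb⟩ := IsAlgClosed.exists_pow_nat_eq a0 hn
  have hane : a ≠ 0 := div_ne_zero (Units.ne_zero _) hden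
  have hb0 : algebraMap Kbar (FN N) b ≠ 0 := by
    intro h0
    apply hane
    rw [ha0, ← hb, map_pow, h0, zero_pow hn.ne']
  refine ⟨Units.mk0 (algebraMap Kbar (FN N) b * s) (mul_ne_zero hb0 hs0), Units.ext ?_⟩
  rw [Units.val_mul, Units.val_pow_eq_pow_val, Units.val_mk0, mul_pow, ← map_pow, hb, ← ha0, ha]
  field_simp

/-- `#W_n = #Pic⁰[n]`. -/
theorem card_W_eq_card_torsion (N : ℕ) [NeZero N] (n : ℕ) (hn : 0 < n) :
    Nat.card (E.W N n) = Nat.card (Pic0.torsion Kbar (FN N) n) := by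
  have key : ∀ w : E.W N n, ∃ c ∈ Pic0.torsion Kbar (FN N) n, KRel N n w c :=
    fun w => KRel.exists_right hn w
  let f : E.W N n → Pic0.torsion Kbar (FN N) n :=
    fun w => ⟨(key w).choose, (key w).choose_spec.1⟩
  have hf : ∀ w, KRel N n w (f w).1 := fun w => (key w).choose_spec.2
  refine Nat.card_congr (Equiv.ofBijective f ⟨?_, ?_⟩)
  · intro w w' hww
    have h1 := hf w
    rw [hww] at h1
    exact KRel.unique_left hn h1 (hf w')
  · intro c
    obtain ⟨w, hw⟩ := KRel.exists_left c.1 c.2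
    exact ⟨w, Subtype.ext (KRel.unique_right hn (hf w) hw)⟩

end Fermat.Agent.NV2
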