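/-
Cluster GAL, block NV2.  TASK NV2-F2 (helper111): general lemma for constant field extensions.

`K` algebraically closed, `F / K` a field which is algebraic over `K(x)`, `K' / K` a field, `L` a field containing
`K'` and `F` compatibly.  If the image of `x` in `L` is transcendental over `K'` then `K' ⊗[K] F → L` is injective.
-/
import Fermat.Agent.S27.H.ConstExtBasic
import Fermat.Agent.S27.H.TensorDomain

set_option autoImplicit false

namespace Fermat.Agent.NV2

open Fermat.Agent.S27.H IntermediateField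
open scoped TensorProduct

section General

variable (K F K' L : Type*) [Field K] [Field F] [Field K'] [Field L]
  [Algebra K F] [Algebra K K'] [Algebra K' L] [Algebra F L] [Algebra K L]
  [IsScalarTower K F L] [IsScalarTower K K' L]

open IntermediateField.algebraAdjoinAdjoin in
theorem isAlgebraic_algebraAdjoin_of_isAlgebraic_adjoin (x : F)
    [Algebra.IsAlgebraic K⟮x⟯ F] (f : F) : IsAlgebraic (Algebra.adjoin K {x}) f :=
  (IsFractionRing.isAlgebraic_iff (Algebra.adjoin K {x}) K⟮x⟯ F).mpr
    (Algebra.IsAlgebraic.isAlgebraic f)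

/-- the subalgebra `K'[1 ⊗ x]` of `K' ⊗[K] F`. -/
noncomputable abbrev polySub (x : F) : Subalgebra K' (K' ⊗[K] F) :=
  Algebra.adjoin K' {(1 : K') ⊗ₜ[K] x}

theorem one_tmul_mem_polySub (x : F) (a : F) (ha : a ∈ Algebra.adjoin K {x}) :
    (1 : K') ⊗ₜ[K] a ∈ polySub K F K' x := by
  induction ha using Algebra.adjoin_induction with
  | mem y hy =>
    rw [Set.mem_singleton_iff] at hy
    subst hy
    exact Algebra.subset_adjoin rfl
  | algebraMap c =>
    have : (1 : K') ⊗ₜ[K] (algebraMap K F c) = algebraMap K' (K' ⊗[K] F) (algebraMap K K' c) := by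
      rw [Algebra.TensorProduct.algebraMap_apply, Algebra.algebraMap_eq_smul_one,
        TensorProduct.tmul_smul, TensorProduct.smul_tmul', Algebra.algebraMap_self,
        RingHom.id_apply, Algebra.algebraMap_eq_smul_one]
    rw [this]
    exact Subalgebra.algebraMap_mem _ _
  | add y z _ _ hy hz =>
    rw [TensorProduct.tmul_add]
    exact add_mem hy hz
  | mul y z _ _ hy hz =>
    have : (1 : K') ⊗ₜ[K] (y * z) = ((1 : K') ⊗ₜ[K] y) * ((1 : K') ⊗ₜ[K] z) := by
      rw [Algebra.TensorProduct.tmul_mul_tmul, one_mul]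
    rw [this]
    exact mul_mem hy hz

/-- `K[x] → K'[1 ⊗ x]`. -/
noncomputable def toPolySub (x : F) : Algebra.adjoin K {x} →+* polySub K F K' x where
  toFun a := ⟨(1 : K') ⊗ₜ[K] (a : F), one_tmul_mem_polySub K F K' x a a.2⟩
  map_one' := rfl
  map_mul' a b := Subtype.ext (by
    show (1 : K') ⊗ₜ[K] ((a : F) * (b : F)) = ((1 : K') ⊗ₜ[K] (a : F)) * ((1 : K') ⊗ₜ[K] (b : F))
    rw [Algebra.TensorProduct.tmul_mul_tmul, one_mul])
  map_zero' := Subtype.ext (TensorProduct.tmul_zero _ _)
  map_add' a b := Subtype.ext (TensorProduct.tmul_add _ _ _)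

theorem toPolySub_injective (x : F) : Function.Injective (toPolySub K F K' x) := by
  intro a b h
  have h1 : (1 : K') ⊗ₜ[K] (a : F) = (1 : K') ⊗ₜ[K] (b : F) := congrArg Subtype.val h
  exact Subtype.ext
    (Algebra.TensorProduct.includeRight_injective (R := K) (A := K') (B := F)
      (algebraMap K K').injective h1)

theorem isAlgebraic_polySub_one_tmul (x : F) [Algebra.IsAlgebraic K⟮x⟯ F] (f : F) :
    IsAlgebraic (polySub K F K' x) ((1 : K') ⊗ₜ[K] f) :=
  (isAlgebraic_algebraAdjoin_of_isAlgebraic_adjoin K F x f).ringHom_of_comp_eq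
    (toPolySub K F K' x)
    ((Algebra.TensorProduct.includeRight : F →ₐ[K] K' ⊗[K] F) : F →+* K' ⊗[K] F)
    (toPolySub_injective K F K' x) (RingHom.ext fun _ => rfl)

theorem isAlgebraic_polySub [IsAlgClosed K] (x : F) [Algebra.IsAlgebraic K⟮x⟯ F]
    (r : K' ⊗[K] F) : IsAlgebraic (polySub K F K' x) r := by
  have : IsDomain (K' ⊗[K] F) := isDomain_tensorProduct_of_isAlgClosed K K' F
  induction r using TensorProduct.induction_on with
  | zero => exact isAlgebraic_zero
  | tmul c f =>
    have h1 : c ⊗ₜ[K] f = algebraMap (polySub K F K' x) (K' ⊗[K] F)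
        (algebraMap K' (polySub K F K' x) c) * ((1 : K') ⊗ₜ[K] f) := by
      rw [← IsScalarTower.algebraMap_apply, Algebra.TensorProduct.algebraMap_apply,
        Algebra.TensorProduct.tmul_mul_tmul]
      simp
    rw [h1]
    exact (isAlgebraic_algebraMap _).mul (isAlgebraic_polySub_one_tmul K F K' x f)
  | add y z hy hz => exact hy.add hz

theorem mulMap_injective_of_transcendental [IsAlgClosed K] (x : F) [Algebra.IsAlgebraic K⟮x⟯ F]
    (hx : Transcendental K' (algebraMap F L x)) : Function.Injective (mulMap K F K' L) := by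
  have : IsDomain (K' ⊗[K] F) := isDomain_tensorProduct_of_isAlgClosed K K' F
  rw [injective_iff_map_eq_zero]
  intro r hr
  by_contra hr0
  obtain ⟨a, ha0, ha⟩ := (isAlgebraic_polySub K F K' x r).exists_nonzero_dvd
    (mem_nonZeroDivisors_of_ne_zero hr0)
  have h1 : mulMap K F K' L (a : K' ⊗[K] F) = 0 := by
    obtain ⟨b, hb⟩ := ha
    have : (a : K' ⊗[K] F) = r * b := hb
    rw [this, map_mul, hr, zero_mul]
  have h2 : (a : K' ⊗[K] F) ∈ (Polynomial.aeval (R := K') ((1 : K') ⊗ₜ[K] x)).range := by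
    rw [← Algebra.adjoin_singleton_eq_range_aeval]
    exact a.2
  obtain ⟨p, hp⟩ := h2
  have hp' : Polynomial.aeval (R := K') ((1 : K') ⊗ₜ[K] x) p = (a : K' ⊗[K] F) := hp
  have hp0 : p ≠ 0 := by
    rintro rfl
    apply ha0
    apply Subtype.ext
    rw [← hp', map_zero]
    rfl
  apply hx
  refine ⟨p, hp0, ?_⟩
  have h3 : mulMap K F K' L ((1 : K') ⊗ₜ[K] x) = algebraMap F L x := by
    rw [mulMap_tmul, map_one, one_mul]
  rw [← h3, Polynomial.aeval_algHom_apply, hp', h1]

/-- criterion: injectivity + generation. -/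
theorem isConstExt_of_injective_of_adjoin (h1 : Function.Injective (mulMap K F K' L))
    (h2 : IntermediateField.adjoin K' (Set.range (algebraMap F L)) = ⊤) :
    IsConstExt K F K' L := by
  refine ⟨h1, fun z => ?_⟩
  have hle : IntermediateField.adjoin K' (Set.range (algebraMap F L)) ≤ quotField K F K' L := by
    rw [IntermediateField.adjoin_le_iff]
    rintro _ ⟨f, rfl⟩
    exact ⟨1 ⊗ₜ[K] f, 1, by simp, by simp⟩
  rw [h2] at hle
  exact hle (IntermediateField.mem_top (x := z))

end General

end Fermat.Agent.NV2
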