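/-
Cluster GAL, block NV2 (owner of the skeleton: helper91).  TASKS NV2-S1 (`expGrowth_inv_discriminant`, `isWH_eisNum`),
NV2-S2 (the rest).
SKELETON FILE: statements are frozen interfaces; the task owner replaces every `sorry`.

Eigenvectors in `LG Γ` for all characters of `Γ₀(N)` which are trivial on parabolic and elliptic elements:
`h = E_φ / E_1 = (E_φ E_1² / Δ) / (E_1³ / Δ)`, `E_φ = Lib.EisensteinChar.eisChar (Γ₀(N)) φ 4`.
-/
import Fermat.Agent.NV2.Points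
import Fermat.Agent.Lib.EisensteinChar

set_option autoImplicit false

namespace Fermat.Agent.NV2

open UpperHalfPlane Filter Topology Fermat.Agent.S24 Fermat.Agent.S24.B
  CongruenceSubgroup ModularForm Fermat.Agent.Lib.EisensteinChar
open scoped MatrixGroups Real Manifold

variable {N : ℕ} [NeZero N] {Γ : Subgroup SL(2, ℤ)}

/-- `1 / Δ = j / E₄³` and `E₄ → 1` at `i∞`; `expGrowth_jfun`. -/
theorem expGrowth_inv_discriminant : ExpGrowth (fun τ => (discriminant τ)⁻¹) := by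
  refine ⟨2 * π, ?_⟩
  have h := exp_isBigO_discriminant.inv_rev
    (Eventually.of_forall fun τ h0 => absurd h0 (Real.exp_pos _).ne')
  refine h.congr (fun τ => rfl) (fun τ => ?_)
  rw [← Real.exp_neg]
  congr 1
  ring

/-- `E_φ E_1² / Δ`. -/
noncomputable def eisNum (N : ℕ) (φ : Gamma0 N →* ℂˣ) (τ : ℍ) : ℂ :=
  eisChar (Gamma0 N) φ 4 τ * eisChar (Gamma0 N) (1 : Gamma0 N →* ℂˣ) 4 τ ^ 2 / discriminant τ

theorem Eis.discriminant_smul (γ : SL(2, ℤ)) (τ : ℍ) :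
    discriminant (γ • τ) = (denom γ τ) ^ (12 : ℤ) * discriminant τ :=
  SlashInvariantForm.slash_action_eqn'' (Γ := 𝒮ℒ) CuspForm.discriminant
    (γ := Matrix.SpecialLinearGroup.mapGL ℝ γ) (MonoidHom.mem_range.mpr ⟨γ, rfl⟩) τ

/-- for all `γ : SL(2,ℤ)`: `eisNum (γ τ) = (E_φ ∣[4] γ) τ (E_1 ∣[4] γ) τ ^ 2 / Δ τ`. -/
theorem eisNum_smul_eq (φ : Gamma0 N →* ℂˣ) (γ : SL(2, ℤ)) (τ : ℍ) :
    eisNum N φ (γ • τ) = (eisChar (Gamma0 N) φ 4 ∣[(4 : ℤ)] γ) τ *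
      (eisChar (Gamma0 N) (1 : Gamma0 N →* ℂˣ) 4 ∣[(4 : ℤ)] γ) τ ^ 2 / discriminant τ := by
  have hd : denom γ τ ≠ 0 := denom_ne_zero _ _
  have hΔ : discriminant τ ≠ 0 := discriminant_ne_zero τ
  rw [eisNum, SL_slash_apply, SL_slash_apply, Eis.discriminant_smul]
  generalize denom γ τ = d at *
  generalize discriminant τ = D at *
  have e4 : d ^ (-(4 : ℤ)) = (d ^ 4)⁻¹ := by rw [zpow_neg]; norm_cast
  have e12 : d ^ (12 : ℤ) = d ^ 12 := by norm_cast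
  rw [e4, e12]
  field_simp

theorem eisNum_smul (φ : Gamma0 N →* ℂˣ)
    (hpar : ∀ g : Gamma0 N, (g : SL(2, ℤ)) 1 0 = 0 → φ g = 1) (γ : Gamma0 N) (τ : ℍ) :
    eisNum N φ ((γ : SL(2, ℤ)) • τ) = (φ γ : ℂ) * eisNum N φ τ := by
  rw [eisNum_smul_eq, eisChar_slash hpar 4 γ,
    eisChar_slash (φ := (1 : Gamma0 N →* ℂˣ)) (fun _ _ => rfl) 4 γ]
  simp only [Pi.smul_apply, smul_eq_mul, MonoidHom.one_apply, Units.val_one, one_mul, eisNum]
  ring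

theorem isWH_eisNum (φ : Gamma0 N →* ℂˣ) (hφ : ∀ g : Gamma0 N, ‖((φ g : ℂˣ) : ℂ)‖ = 1)
    (hpar : ∀ g : Gamma0 N, (g : SL(2, ℤ)) 1 0 = 0 → φ g = 1) (hΓ0 : Γ ≤ Gamma0 N)
    (hΓφ : ∀ g : Gamma0 N, (g : SL(2, ℤ)) ∈ Γ → φ g = 1) : IsWH Γ (eisNum N φ) := by
  have hφ1 : ∀ g : Gamma0 N, ‖(((1 : Gamma0 N →* ℂˣ) g : ℂˣ) : ℂ)‖ = 1 := fun g => by simp
  have hpar1 : ∀ g : Gamma0 N, (g : SL(2, ℤ)) 1 0 = 0 → (1 : Gamma0 N →* ℂˣ) g = 1 :=
    fun g _ => rfl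
  refine ⟨?_, ?_, ?_⟩
  · have h1 : MDiff (eisChar (Gamma0 N) φ 4) := eisChar_mdifferentiable hφ (by norm_num)
    have h2 : MDiff (eisChar (Gamma0 N) (1 : Gamma0 N →* ℂˣ) 4) :=
      eisChar_mdifferentiable hφ1 (by norm_num)
    exact (h1.mul (h2.pow 2)).div CuspForm.discriminant.holo' discriminant_ne_zero
  · intro γ hγ τ
    have e1 := eisChar_slash hpar 4 ⟨γ, hΓ0 hγ⟩
    have e2 := eisChar_slash hpar1 4 ⟨γ, hΓ0 hγ⟩
    rw [hΓφ ⟨γ, hΓ0 hγ⟩ hγ] at e1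
    simp only [Units.val_one, one_smul, MonoidHom.one_apply] at e1 e2
    rw [eisNum_smul_eq, e1, e2]
    rfl
  · intro γ
    have h1 : ExpGrowth (eisChar (Gamma0 N) φ 4 ∣[(4 : ℤ)] γ) :=
      ExpGrowth.of_isBoundedAtImInfty (isBoundedAtImInfty_eisChar_slash hφ (by norm_num) γ)
    have h2 : ExpGrowth (eisChar (Gamma0 N) (1 : Gamma0 N →* ℂˣ) 4 ∣[(4 : ℤ)] γ) :=
      ExpGrowth.of_isBoundedAtImInfty (isBoundedAtImInfty_eisChar_slash hφ1 (by norm_num) γ)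
    have h3 := (h1.mul (h2.mul h2)).mul expGrowth_inv_discriminant
    have e : (fun τ => eisNum N φ (γ • τ)) =
        (eisChar (Gamma0 N) φ 4 ∣[(4 : ℤ)] γ) *
          ((eisChar (Gamma0 N) (1 : Gamma0 N →* ℂˣ) 4 ∣[(4 : ℤ)] γ) *
            (eisChar (Gamma0 N) (1 : Gamma0 N →* ℂˣ) 4 ∣[(4 : ℤ)] γ)) *
          fun τ => (discriminant τ)⁻¹ := by
      funext τ
      rw [eisNum_smul_eq]
      simp only [Pi.mul_apply]
      rw [div_eq_mul_inv, pow_two]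
    rw [e]
    exact h3

theorem eisNum_ne_zero (φ : Gamma0 N →* ℂˣ) (hφ : ∀ g : Gamma0 N, ‖((φ g : ℂˣ) : ℂ)‖ = 1)
    (hpar : ∀ g : Gamma0 N, (g : SL(2, ℤ)) 1 0 = 0 → φ g = 1) : eisNum N φ ≠ 0 := by
  intro h0
  have hT : ModularGroup.T ∈ Gamma0 N := by
    rw [Gamma0_mem]
    simp [ModularGroup.T]
  have hneg : (-1 : SL(2, ℤ)) ∈ Gamma0 N := by
    rw [Gamma0_mem]
    simp
  have h1 := tendsto_eisChar_atImInfty (k := 4) hφ hpar hT hneg (by norm_num) (by decide)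
  have h2 := tendsto_eisChar_atImInfty (G := Gamma0 N) (φ := (1 : Gamma0 N →* ℂˣ)) (k := 4)
    (fun _ => by simp) (fun _ _ => rfl) hT hneg (by norm_num) (by decide)
  have h3 := h1.mul (h2.pow 2)
  have h4 : (fun τ : ℍ => eisChar (Gamma0 N) φ 4 τ *
      eisChar (Gamma0 N) (1 : Gamma0 N →* ℂˣ) 4 τ ^ 2) = fun _ => 0 := by
    funext τ
    have h5 := congrFun h0 τ
    rw [eisNum, Pi.zero_apply, div_eq_zero_iff] at h5
    exact h5.resolve_right (discriminant_ne_zero τ)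
  rw [h4] at h3
  have h6 := tendsto_nhds_unique h3 tendsto_const_nhds
  norm_num at h6

/-- an element of `Γ₀(N)` with `c = 0` is `± T^m`, `-1 = S^2`. -/
theorem IsPEChar.eq_one_of_c_eq_zero {n : ℕ} {χ : Gamma0 N →* ℂˣ}
    (hχ : IsPEChar (Gamma0 N) STT n χ) (g : Gamma0 N) (hg : (g : SL(2, ℤ)) 1 0 = 0) :
    χ g = 1 := by
  have hT : ModularGroup.T ∈ Gamma0 N := by
    rw [Gamma0_mem]
    simp [ModularGroup.T]
  have hneg : (-1 : SL(2, ℤ)) ∈ Gamma0 N := by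
    rw [Gamma0_mem]
    simp
  have hχT : χ ⟨ModularGroup.T, hT⟩ = 1 := by
    refine hχ.2 _ ⟨hT, ModularGroup.T, by simp [STT], 1, 1, ?_⟩
    simp
  have hχneg : χ ⟨-1, hneg⟩ = 1 := by
    refine hχ.2 _ ⟨hneg, ModularGroup.S, by simp [STT], 2, 1, ?_⟩
    have hS : (ModularGroup.S ^ 2 : SL(2, ℤ)) = -1 := by
      apply Subtype.ext
      rw [pow_two, Matrix.SpecialLinearGroup.coe_mul, ModularGroup.S_mul_S_eq]
      simp
    simp [hS]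
  have hχTm : ∀ m : ℤ, χ (⟨ModularGroup.T, hT⟩ ^ m) = 1 := by
    intro m
    rw [map_zpow, hχT, one_zpow]
  have hdet := (g : SL(2, ℤ)).det_coe
  rw [Matrix.det_fin_two, hg, mul_zero, sub_zero] at hdet
  rcases Int.eq_one_or_neg_one_of_mul_eq_one' hdet with ⟨ha, hd⟩ | ⟨ha, hd⟩
  · have hgT : g = ⟨ModularGroup.T, hT⟩ ^ ((g : SL(2, ℤ)) 0 1) := by
      apply Subtype.ext
      rw [Subgroup.coe_zpow]
      ext i j
      rw [ModularGroup.coe_T_zpow]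
      fin_cases i <;> fin_cases j <;> simp [ha, hd, hg]
    rw [hgT, hχTm]
  · have hgT : g = ⟨-1, hneg⟩ * ⟨ModularGroup.T, hT⟩ ^ (-((g : SL(2, ℤ)) 0 1)) := by
      apply Subtype.ext
      rw [Subgroup.coe_mul, Subgroup.coe_zpow]
      ext i j
      rw [Matrix.SpecialLinearGroup.coe_mul, ModularGroup.coe_T_zpow]
      fin_cases i <;> fin_cases j <;> simp [ha, hd, hg]
    rw [hgT, map_mul, hχTm, hχneg, one_mul]

/-- take `φ = χ⁻¹`, `h = eisNum φ / eisNum 1`: `(g • h) τ = h (g⁻¹ τ) = φ(g⁻¹) h τ = χ(g) h τ`. -/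
theorem exists_hasChar [Γ.Normal] (hΓ : Γ ≤ Gamma N) {n : ℕ} (hn : 0 < n)
    (hker : ∀ χ : Gamma0 N →* ℂˣ, (∀ g, χ g ^ n = 1) →
      ∀ g : Gamma0 N, (g : SL(2, ℤ)) ∈ Γ → χ g = 1)
    (χ : Gamma0 N →* ℂˣ) (hχ : IsPEChar (Gamma0 N) STT n χ) :
    ∃ h : LG Γ, h ≠ 0 ∧ HasChar (Gamma0 N) h χ := by
  have hΓ0 : Γ ≤ Gamma0 N := fun g hg => by
    have h1 := hΓ hg
    rw [Gamma_mem] at h1
    rw [Gamma0_mem]
    exact h1.2.2.1
  -- the data for a character of exponent `n` trivial on parabolic and elliptic elements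
  have key : ∀ φ : Gamma0 N →* ℂˣ, IsPEChar (Gamma0 N) STT n φ →
      ∃ A : AG Γ, A ≠ 0 ∧ ∀ e : Gamma0 N,
        (e : SL(2, ℤ)) • A = algebraMap ℂ (AG Γ) ((φ e⁻¹ : ℂˣ) : ℂ) * A := by
    intro φ hφ'
    have hφ : ∀ g : Gamma0 N, ‖((φ g : ℂˣ) : ℂ)‖ = 1 := norm_eq_one_of_pow n hn.ne' hφ'.1
    have hpar : ∀ g : Gamma0 N, (g : SL(2, ℤ)) 1 0 = 0 → φ g = 1 := hφ'.eq_one_of_c_eq_zero
    refine ⟨⟨eisNum N φ, isWH_eisNum φ hφ hpar hΓ0 (hker φ hφ'.1)⟩, ?_, ?_⟩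
    · intro h0
      exact eisNum_ne_zero φ hφ hpar (congrArg Subtype.val h0)
    · intro e
      apply Subtype.ext
      funext τ
      rw [smul_AG_apply]
      have := eisNum_smul φ hpar e⁻¹ τ
      rw [Subgroup.coe_inv] at this
      exact this
  have hχinv : IsPEChar (Gamma0 N) STT n χ⁻¹ :=
    ⟨fun e => by rw [MonoidHom.inv_apply, inv_pow, hχ.1, inv_one],
      fun e he => by rw [MonoidHom.inv_apply, hχ.2 e he, inv_one]⟩
  have hone : IsPEChar (Gamma0 N) STT n (1 : Gamma0 N →* ℂˣ) :=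
    ⟨fun e => by rw [MonoidHom.one_apply, one_pow], fun e _ => rfl⟩
  obtain ⟨A, hA0, hA⟩ := key χ⁻¹ hχinv
  obtain ⟨B, hB0, hB⟩ := key 1 hone
  have hinj := IsFractionRing.injective (AG Γ) (LG Γ)
  have hA0' : algebraMap (AG Γ) (LG Γ) A ≠ 0 := fun h => hA0 (hinj (by rw [h, map_zero]))
  have hB0' : algebraMap (AG Γ) (LG Γ) B ≠ 0 := fun h => hB0 (hinj (by rw [h, map_zero]))
  refine ⟨algebraMap (AG Γ) (LG Γ) A / algebraMap (AG Γ) (LG Γ) B, div_ne_zero hA0' hB0', ?_⟩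
  intro e
  rw [smul_div₀', smul_algebraMap_AG, smul_algebraMap_AG, hA e, hB e, map_mul, map_mul,
    ← IsScalarTower.algebraMap_apply ℂ (AG Γ) (LG Γ), ← IsScalarTower.algebraMap_apply ℂ (AG Γ) (LG Γ),
    MonoidHom.one_apply, Units.val_one, map_one, one_mul, MonoidHom.inv_apply, map_inv, inv_inv,
    mul_div_assoc]

end Fermat.Agent.NV2
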