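/-
Cluster GAL, block NV2 (owner of the skeleton: helper91).  TASK NV2-G1.
Statements are frozen interfaces (proofs: helper220).

The auxiliary normal subgroup of finite index `GNn N n ≤ Γ(N)` on which all characters of `Γ₀(N)` of exponent `n`
are trivial.  Finite index: `Γ₀(N)` is finitely generated (see `S16/Lift/Count.lean`, `instFGGamma0`), so there are only finitely
many characters `Γ₀(N) → μ_n(ℂ)`; each kernel has finite index; `Subgroup.finiteIndex_iInf`, `Subgroup.FiniteIndex` of `map subtype`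
(index multiplicativity), `Subgroup.normalCore` of a finite index subgroup has finite index.
-/
import Mathlib

set_option autoImplicit false

namespace Fermat.Agent.NV2

open CongruenceSubgroup
open scoped MatrixGroups

/-- The intersection of the kernels of the characters of `Γ₀(N)` of exponent `n`. -/
def kerAll (N n : ℕ) : Subgroup SL(2, ℤ) :=
  (⨅ χ : {χ : Gamma0 N →* ℂˣ // ∀ η, χ η ^ n = 1}, χ.1.ker).map (Gamma0 N).subtype

/-- The auxiliary group. -/
def GNn (N n : ℕ) : Subgroup SL(2, ℤ) := (kerAll N n ⊓ Gamma N).normalCore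

instance instNormalGNn (N n : ℕ) : (GNn N n).Normal := Subgroup.normalCore_normal _

theorem fg_Gamma0 (N : ℕ) [NeZero N] : Group.FG (Gamma0 N) := by
  have : Group.FG SL(2, ℤ) := by
    rw [Group.fg_iff]
    exact ⟨{ModularGroup.S, ModularGroup.T}, _root_.SpecialLinearGroup.SL2Z_generators, by simp⟩
  exact Subgroup.fg_of_index_ne_zero _

/-- A finitely generated group has only finitely many characters of exponent `n`. -/
theorem finite_chars_of_fg (G : Type*) [Group G] [Group.FG G] (n : ℕ) [NeZero n] :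
    Finite {χ : G →* ℂˣ // ∀ η, χ η ^ n = 1} := by
  obtain ⟨S, hS, hSfin⟩ := Group.fg_iff.mp (inferInstance : Group.FG G)
  have : Finite S := hSfin
  let F : {χ : G →* ℂˣ // ∀ η, χ η ^ n = 1} → (S → rootsOfUnity n ℂ) :=
    fun χ s => ⟨χ.1 s, (mem_rootsOfUnity _ _).mpr (χ.2 s)⟩
  refine Finite.of_injective F ?_
  intro χ ψ h
  apply Subtype.ext
  apply MonoidHom.eq_of_eqOn_dense hS
  intro s hs
  have := congrFun h ⟨s, hs⟩
  exact congrArg (fun z : rootsOfUnity n ℂ => (z : ℂˣ)) this

theorem finiteIndex_ker_of_exponent {G : Type*} [Group G] (n : ℕ) [NeZero n] (χ : G →* ℂˣ)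
    (hχ : ∀ η, χ η ^ n = 1) : χ.ker.FiniteIndex := by
  have : Finite χ.range := by
    have hle : χ.range ≤ rootsOfUnity n ℂ := by
      rintro _ ⟨η, rfl⟩
      exact (mem_rootsOfUnity _ _).mpr (hχ η)
    exact Finite.of_injective (Subgroup.inclusion hle) (Subgroup.inclusion_injective hle)
  exact Subgroup.finiteIndex_ker χ

theorem finiteIndex_kerAll (N n : ℕ) [NeZero N] [NeZero n] : (kerAll N n).FiniteIndex := by
  have := fg_Gamma0 N
  have := finite_chars_of_fg (Gamma0 N) n
  have h1 : (⨅ χ : {χ : Gamma0 N →* ℂˣ // ∀ η, χ η ^ n = 1}, χ.1.ker).FiniteIndex :=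
    Subgroup.finiteIndex_iInf fun χ => finiteIndex_ker_of_exponent n χ.1 χ.2
  refine ⟨?_⟩
  rw [kerAll, Subgroup.index_map_subtype]
  exact mul_ne_zero h1.index_ne_zero (Subgroup.FiniteIndex.index_ne_zero)

instance instFiniteIndexGNn (N n : ℕ) [NeZero N] [NeZero n] : (GNn N n).FiniteIndex := by
  have := finiteIndex_kerAll N n
  unfold GNn
  infer_instance

theorem GNn_le_Gamma (N n : ℕ) : GNn N n ≤ Gamma N :=
  (Subgroup.normalCore_le _).trans inf_le_right

theorem char_eq_one_of_mem_GNn {N n : ℕ} (χ : Gamma0 N →* ℂˣ) (hχ : ∀ η, χ η ^ n = 1)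
    (η : Gamma0 N) (hη : (η : SL(2, ℤ)) ∈ GNn N n) : χ η = 1 := by
  have h1 : (η : SL(2, ℤ)) ∈ kerAll N n := (Subgroup.normalCore_le _ hη).1
  obtain ⟨η', hη', he⟩ := Subgroup.mem_map.mp h1
  have hηη : η' = η := Subtype.ext he
  subst hηη
  have := (Subgroup.mem_iInf.mp hη') ⟨χ, hχ⟩
  exact MonoidHom.mem_ker.mp this

end Fermat.Agent.NV2
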