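/-
Cluster GAL, block NV2 (owner helper91).  Basic definitions.

`AG Γ` : the `ℂ`-algebra of holomorphic functions on `ℍ` which are invariant under `Γ` and have at
most exponential growth at all cusps ("weakly holomorphic modular functions for `Γ`").
For `Γ` normal in `SL(2,ℤ)` the group `SL(2,ℤ)` acts on `AG Γ` by `(γ • f) τ = f (γ⁻¹ • τ)`
(the same convention as `Fermat.Agent.S24.AL`).
-/
import Fermat.Agent.S24.Analytic.Defs

set_option autoImplicit false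

namespace Fermat.Agent.NV2

open UpperHalfPlane
open scoped MatrixGroups Real Manifold Asymptotics

/-- At most exponential growth at `i∞`. -/
def ExpGrowth (f : ℍ → ℂ) : Prop :=
  ∃ c : ℝ, f =O[atImInfty] fun τ : ℍ => Real.exp (c * τ.im)

theorem ExpGrowth.const (a : ℂ) : ExpGrowth (fun _ => a) :=
  ⟨0, by simpa using Asymptotics.isBigO_const_const a (one_ne_zero (α := ℝ)) atImInfty⟩

theorem eventually_im_nonneg : ∀ᶠ τ : ℍ in atImInfty, 0 ≤ τ.im :=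
  Filter.Eventually.of_forall fun τ => τ.im_pos.le

theorem isBigO_exp_of_le {c c' : ℝ} (h : c ≤ c') :
    (fun τ : ℍ => Real.exp (c * τ.im)) =O[atImInfty] fun τ : ℍ => Real.exp (c' * τ.im) := by
  refine Asymptotics.IsBigO.of_bound 1 (Filter.Eventually.of_forall fun τ => ?_)
  rw [Real.norm_eq_abs, Real.norm_eq_abs, abs_of_pos (Real.exp_pos _), abs_of_pos (Real.exp_pos _),
    one_mul]
  exact Real.exp_le_exp.mpr (mul_le_mul_of_nonneg_right h τ.im_pos.le)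

theorem ExpGrowth.add {f g : ℍ → ℂ} (hf : ExpGrowth f) (hg : ExpGrowth g) :
    ExpGrowth (f + g) := by
  obtain ⟨c, h⟩ := hf
  obtain ⟨c', h'⟩ := hg
  exact ⟨max c c', (h.trans (isBigO_exp_of_le (le_max_left _ _))).add
    (h'.trans (isBigO_exp_of_le (le_max_right _ _)))⟩

theorem ExpGrowth.mul {f g : ℍ → ℂ} (hf : ExpGrowth f) (hg : ExpGrowth g) :
    ExpGrowth (f * g) := by
  obtain ⟨c, h⟩ := hf
  obtain ⟨c', h'⟩ := hg
  refine ⟨c + c', ?_⟩
  have h2 := h.mul h'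
  simp only [← Real.exp_add, ← add_mul] at h2
  exact h2

theorem ExpGrowth.of_isBoundedAtImInfty {f : ℍ → ℂ} (hf : IsBoundedAtImInfty f) : ExpGrowth f :=
  ⟨0, by
    have h : f =O[atImInfty] (fun _ : ℍ => (1 : ℝ)) := hf
    simpa only [zero_mul, Real.exp_zero] using h⟩

/-- `f` is a weakly holomorphic modular function for `Γ`. -/
structure IsWH (Γ : Subgroup SL(2, ℤ)) (f : ℍ → ℂ) : Prop where
  mdiff : MDiff f
  inv : ∀ γ ∈ Γ, ∀ τ : ℍ, f (γ • τ) = f τ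
  growth : ∀ γ : SL(2, ℤ), ExpGrowth (fun τ => f (γ • τ))

/-- The `ℂ`-algebra of weakly holomorphic modular functions for `Γ`. -/
def AG (Γ : Subgroup SL(2, ℤ)) : Subalgebra ℂ (ℍ → ℂ) where
  carrier := {f | IsWH Γ f}
  mul_mem' := by
    intro f g hf hg
    exact ⟨hf.mdiff.mul hg.mdiff, fun γ hγ τ => by
      simp only [Pi.mul_apply, hf.inv γ hγ τ, hg.inv γ hγ τ],
      fun γ => (hf.growth γ).mul (hg.growth γ)⟩
  add_mem' := by
    intro f g hf hg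
    exact ⟨hf.mdiff.add hg.mdiff, fun γ hγ τ => by
      simp only [Pi.add_apply, hf.inv γ hγ τ, hg.inv γ hγ τ],
      fun γ => (hf.growth γ).add (hg.growth γ)⟩
  algebraMap_mem' := by
    intro a
    exact ⟨mdifferentiable_const, fun _ _ _ => rfl, fun _ => ExpGrowth.const a⟩

theorem mem_AG {Γ : Subgroup SL(2, ℤ)} {f : ℍ → ℂ} : f ∈ AG Γ ↔ IsWH Γ f := Iff.rfl

theorem isWH_coe {Γ : Subgroup SL(2, ℤ)} (f : AG Γ) : IsWH Γ f.1 := f.2

theorem algebraMap_AG_apply {Γ : Subgroup SL(2, ℤ)} (a : ℂ) (τ : ℍ) :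
    (algebraMap ℂ (AG Γ) a).1 τ = a := rfl

theorem IsWH.comp_smul {Γ : Subgroup SL(2, ℤ)} [Γ.Normal] {f : ℍ → ℂ} (hf : IsWH Γ f)
    (g : SL(2, ℤ)) : IsWH Γ (fun τ => f (g • τ)) := by
  refine ⟨?_, ?_, ?_⟩
  · exact hf.mdiff.comp (UpperHalfPlane.mdifferentiable_smul (g := (g : GL (Fin 2) ℝ)) (by simp))
  · intro γ hγ τ
    have h1 : g * γ * g⁻¹ ∈ Γ := Subgroup.Normal.conj_mem inferInstance γ hγ g
    have h2 : g • γ • τ = (g * γ * g⁻¹) • g • τ := by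
      rw [← mul_smul, ← mul_smul]; congr 1; group
    rw [h2, hf.inv _ h1]
  · intro γ
    have := hf.growth (g * γ)
    simpa only [mul_smul] using this

/-- `SL(2,ℤ)` acts on `AG Γ` by `(γ • f) τ = f (γ⁻¹ • τ)`. -/
noncomputable instance instActionAG (Γ : Subgroup SL(2, ℤ)) [Γ.Normal] :
    MulSemiringAction SL(2, ℤ) (AG Γ) where
  smul γ f := ⟨fun τ => f.1 (γ⁻¹ • τ), f.2.comp_smul γ⁻¹⟩
  one_smul f := by
    apply Subtype.ext
    funext τ
    show f.1 ((1 : SL(2, ℤ))⁻¹ • τ) = f.1 τ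
    rw [inv_one, one_smul]
  mul_smul γ γ' f := by
    apply Subtype.ext
    funext τ
    show f.1 ((γ * γ')⁻¹ • τ) = f.1 (γ'⁻¹ • γ⁻¹ • τ)
    rw [mul_inv_rev, mul_smul]
  smul_zero γ := rfl
  smul_add γ f g := rfl
  smul_one γ := rfl
  smul_mul γ f g := rfl

theorem smul_AG_apply {Γ : Subgroup SL(2, ℤ)} [Γ.Normal] (γ : SL(2, ℤ)) (f : AG Γ) (τ : ℍ) :
    (γ • f).1 τ = f.1 (γ⁻¹ • τ) := rfl

theorem smul_AG_algebraMap {Γ : Subgroup SL(2, ℤ)} [Γ.Normal] (γ : SL(2, ℤ)) (a : ℂ) :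
    γ • algebraMap ℂ (AG Γ) a = algebraMap ℂ (AG Γ) a := rfl

theorem smul_AG_of_mem {Γ : Subgroup SL(2, ℤ)} [Γ.Normal] {γ : SL(2, ℤ)} (hγ : γ ∈ Γ)
    (f : AG Γ) : γ • f = f := by
  apply Subtype.ext
  funext τ
  rw [smul_AG_apply]
  exact f.2.inv _ (inv_mem hγ) τ

end Fermat.Agent.NV2
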