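/-
Cluster GAL, block NV2 (owner helper91).  Taylor expansions at `τ₀ ∈ ℍ` (disc coordinate) of the elements of
`AG Γ`; `AG Γ` is a domain; the field `LG Γ = Frac (AG Γ)` with its `SL(2,ℤ)`-action and the Laurent
expansion homomorphisms.  (Adaptation of `S24/B/WExp.lean`, `S24/B/Field.lean`.)
-/
import Fermat.Agent.NV2.Defs
import Fermat.Agent.S24.B.WExpAnalytic
import Fermat.Agent.S24.B.Laurent

set_option autoImplicit false

namespace Fermat.Agent.NV2

open UpperHalfPlane Filter Topology Fermat.Agent.S24 Fermat.Agent.S24.B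
open scoped MatrixGroups Real Manifold

section Ring

variable {Γ : Subgroup SL(2, ℤ)} (τ₀ : ℍ)

/-- The Taylor expansion of an element of `AG Γ` at `τ₀`. -/
noncomputable def wexpFun (f : AG Γ) : PowerSeries ℂ :=
  (exists_hasWExp τ₀ f.2.mdiff).choose

theorem hasWExp_wexpFun (f : AG Γ) : HasWExp τ₀ f.1 (wexpFun τ₀ f) :=
  (exists_hasWExp τ₀ f.2.mdiff).choose_spec

variable {τ₀} in
theorem wexpFun_eq {f : AG Γ} {s : PowerSeries ℂ} (h : HasWExp τ₀ f.1 s) : wexpFun τ₀ f = s :=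
  (hasWExp_wexpFun τ₀ f).unique h

variable (Γ) in
/-- The Taylor expansion homomorphism at `τ₀`. -/
noncomputable def wexp : AG Γ →+* PowerSeries ℂ where
  toFun := wexpFun τ₀
  map_one' := wexpFun_eq (by
    have h := HasWExp.const (τ₀ := τ₀) 1
    rw [map_one] at h
    exact h)
  map_mul' f g := wexpFun_eq ((hasWExp_wexpFun τ₀ f).mul (hasWExp_wexpFun τ₀ g))
  map_zero' := wexpFun_eq (by
    have h := HasWExp.const (τ₀ := τ₀) 0
    rw [map_zero] at h
    exact h)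
  map_add' f g := wexpFun_eq ((hasWExp_wexpFun τ₀ f).add (hasWExp_wexpFun τ₀ g))

theorem hasWExp_wexp (f : AG Γ) : HasWExp τ₀ f.1 (wexp Γ τ₀ f) := hasWExp_wexpFun τ₀ f

variable {τ₀} in
theorem wexp_eq {f : AG Γ} {s : PowerSeries ℂ} (h : HasWExp τ₀ f.1 s) : wexp Γ τ₀ f = s :=
  wexpFun_eq h

theorem wexp_injective : Function.Injective (wexp Γ τ₀) := by
  rw [injective_iff_map_eq_zero]
  intro f hf
  have h := hasWExp_wexp τ₀ f
  rw [hf] at h
  exact Subtype.ext (h.eq_zero f.2.mdiff)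

theorem wexp_algebraMap (c : ℂ) :
    wexp Γ τ₀ (algebraMap ℂ (AG Γ) c) = PowerSeries.C c :=
  wexp_eq (HasWExp.const c)

theorem order_wexp (f : AG Γ) : (wexp Γ τ₀ f).order = ordAt τ₀ f.1 :=
  (hasWExp_wexp τ₀ f).order_eq f.2.mdiff

instance instIsDomainAG : IsDomain (AG Γ) :=
  (wexp_injective (Γ := Γ) UpperHalfPlane.I).isDomain

theorem ofPowerSeries_comp_wexp_injective :
    Function.Injective ((HahnSeries.ofPowerSeries ℤ ℂ).comp (wexp Γ τ₀)) :=
  HahnSeries.ofPowerSeries_injective.comp (wexp_injective τ₀)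

end Ring

section Field

variable (Γ : Subgroup SL(2, ℤ))

/-- The field of modular functions for `Γ`. -/
abbrev LG : Type := FractionRing (AG Γ)

/-- shortcut instance -/
noncomputable instance instSMulAGLG : SMul (AG Γ) (LG Γ) := Algebra.toSMul

/-- shortcut instance -/
noncomputable instance instModuleComplexLG : Module ℂ (LG Γ) := Algebra.toModule

noncomputable instance instActionLG [Γ.Normal] : MulSemiringAction SL(2, ℤ) (LG Γ) :=
  IsFractionRing.mulSemiringAction SL(2, ℤ) (AG Γ) (LG Γ)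

instance instSMulDistribClassLG [Γ.Normal] : SMulDistribClass SL(2, ℤ) (AG Γ) (LG Γ) :=
  IsFractionRing.smulDistribClass SL(2, ℤ) (AG Γ) (LG Γ)

variable {Γ}

theorem smul_algebraMap_AG [Γ.Normal] (γ : SL(2, ℤ)) (f : AG Γ) :
    γ • algebraMap (AG Γ) (LG Γ) f = algebraMap (AG Γ) (LG Γ) (γ • f) :=
  (algebraMap.coe_smul' γ f (LG Γ)).symm

theorem smul_algebraMap_complex [Γ.Normal] (γ : SL(2, ℤ)) (c : ℂ) :
    γ • algebraMap ℂ (LG Γ) c = algebraMap ℂ (LG Γ) c := by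
  rw [IsScalarTower.algebraMap_apply ℂ (AG Γ) (LG Γ), smul_algebraMap_AG, smul_AG_algebraMap]

variable (Γ) (τ₀ : ℍ)

/-- The Laurent expansion at `τ₀` on the fraction field. -/
noncomputable def wexpL : LG Γ →+* LaurentSeries ℂ :=
  IsFractionRing.lift (ofPowerSeries_comp_wexp_injective (Γ := Γ) τ₀)

variable {Γ}

theorem wexpL_algebraMap (f : AG Γ) :
    wexpL Γ τ₀ (algebraMap (AG Γ) (LG Γ) f) = HahnSeries.ofPowerSeries ℤ ℂ (wexp Γ τ₀ f) :=
  IsFractionRing.lift_algebraMap _ _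

theorem wexpL_algebraMap_complex (c : ℂ) :
    wexpL Γ τ₀ (algebraMap ℂ (LG Γ) c) = HahnSeries.C c := by
  rw [IsScalarTower.algebraMap_apply ℂ (AG Γ) (LG Γ), wexpL_algebraMap, wexp_algebraMap,
    HahnSeries.ofPowerSeries_C]

/-- an element of `SL(2,ℤ)` which is the rotation `w ↦ μ w` acts on expansions by `twist μ`. -/
theorem wexpL_smul [Γ.Normal] (δ : SL(2, ℤ)) (μ : ℂˣ)
    (hδ : ∀ᶠ w in 𝓝 (0 : ℂ),
      δ⁻¹ • ofComplex (discInv τ₀ w) = ofComplex (discInv τ₀ ((μ : ℂ) * w))) (g : LG Γ) :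
    wexpL Γ τ₀ (δ • g) = twist μ (wexpL Γ τ₀ g) := by
  have key : (wexpL Γ τ₀).comp (MulSemiringAction.toRingHom SL(2, ℤ) (LG Γ) δ) =
      (twist μ).comp (wexpL Γ τ₀) := by
    refine IsLocalization.ringHom_ext (nonZeroDivisors (AG Γ)) ?_
    ext1 f
    have h1 : wexp Γ τ₀ (δ • f) = PowerSeries.rescale (μ : ℂ) (wexp Γ τ₀ f) :=
      wexp_eq ((hasWExp_wexp τ₀ f).comp (fun τ => δ⁻¹ • τ) μ hδ)
    simp only [RingHom.comp_apply, MulSemiringAction.toRingHom_apply]
    rw [smul_algebraMap_AG, wexpL_algebraMap, wexpL_algebraMap, twist_ofPowerSeries, h1]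
  exact congrArg (fun φ : LG Γ →+* LaurentSeries ℂ => φ g) key

/-- finite orbits -/
theorem finite_orbit_AG [Γ.Normal] [Γ.FiniteIndex] (f : AG Γ) :
    (MulAction.orbit SL(2, ℤ) f).Finite := by
  classical
  have hfin : Finite (SL(2, ℤ) ⧸ Γ) := Subgroup.finite_quotient_of_finiteIndex
  let φ : SL(2, ℤ) ⧸ Γ → AG Γ := fun q => Quotient.liftOn' q (fun γ => γ • f) (by
    intro a b hab
    have h : a⁻¹ * b ∈ Γ := QuotientGroup.leftRel_apply.mp hab
    show a • f = b • f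
    have : b • f = a • ((a⁻¹ * b) • f) := by rw [← mul_smul]; congr 1; group
    rw [this, smul_AG_of_mem h])
  refine (Set.finite_range φ).subset ?_
  rintro _ ⟨γ, rfl⟩
  exact ⟨(γ : SL(2, ℤ) ⧸ Γ), rfl⟩

end Field

end Fermat.Agent.NV2
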