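/-
Cluster GAL, block NV2 (skeleton by helper91, proofs by helper141).  TASK NV2-L1.

Level one: a holomorphic `SL(2,ℤ)`-invariant function of exponential growth is a polynomial in `j` (complex
coefficients).  The invariants of `LG Γ` are `ℂ(j)`.

PROOF of `exists_poly_of_invariant`.  Let `q τ = exp (2 π i τ)`.  Claim by induction on `m : ℕ`: if `f` is
holomorphic, invariant and `f * q^m` is bounded at `i∞` then `f` is a polynomial in `j`.
`m = 0`: `S24.B.const_of_invariant_of_bounded`.  Step: `g = f * q^(m+1)` is `1`-periodic, holomorphic, bounded at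
`i∞`, so `g - a = O(q)` for its limit `a`; the same for `(j q)^(m+1) - 1`; hence
`(f - a j^(m+1)) * q^m` is bounded.  Finally `ExpGrowth f` gives some `m` with `f * q^m` bounded.
-/
import Fermat.Agent.NV2.WExpG
import Fermat.Agent.S24.B.LevelOne
import Fermat.Agent.S24.B.InvFrac

set_option autoImplicit false

namespace Fermat.Agent.NV2

open UpperHalfPlane Fermat.Agent.S24 Fermat.Agent.S24.B Filter Topology ModularCurve
open scoped MatrixGroups Real Manifold

namespace LevelOne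

/-- `q = exp (2 π i τ)` on the upper half plane. -/
noncomputable def qq (τ : ℍ) : ℂ := Function.Periodic.qParam 1 τ

theorem norm_qq (τ : ℍ) : ‖qq τ‖ = Real.exp (-2 * π * τ.im) := by
  rw [qq, Function.Periodic.norm_qParam, div_one]
  rfl

theorem qq_ne_zero (τ : ℍ) : qq τ ≠ 0 := Function.Periodic.qParam_ne_zero _

theorem mdiff_qq : MDiff qq := by
  intro τ
  rw [UpperHalfPlane.mdifferentiableAt_iff]
  have h1 : DifferentiableAt ℂ (Function.Periodic.qParam 1) (τ : ℂ) :=
    (Function.Periodic.differentiable_qParam (h := 1)) _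
  refine h1.congr_of_eventuallyEq ?_
  filter_upwards [(Complex.continuous_im.isOpen_preimage _ isOpen_Ioi).mem_nhds
    (show (τ : ℂ) ∈ Complex.im ⁻¹' Set.Ioi 0 from τ.im_pos)] with z hz
  simp only [Function.comp_apply, qq]
  rw [UpperHalfPlane.ofComplex_apply_of_im_pos hz]

theorem periodic_comp_ofComplex {f : ℍ → ℂ} (h : ∀ τ : ℍ, f (ModularGroup.T • τ) = f τ) :
    Function.Periodic (f ∘ ofComplex) 1 := by
  intro w
  by_cases hw : 0 < Complex.im w
  · have hw1 : 0 < Complex.im (w + 1) := by simpa using hw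
    simp only [Function.comp_apply, ofComplex_apply_of_im_pos hw1, ofComplex_apply_of_im_pos hw]
    rw [← h ⟨w, hw⟩]
    congr 1
    apply UpperHalfPlane.ext
    rw [UpperHalfPlane.modular_T_smul]
    simp [add_comm]
  · have hw1 : Complex.im (w + 1) ≤ 0 := by simpa using hw
    simp only [Function.comp_apply, ofComplex_apply_of_im_nonpos hw1,
      ofComplex_apply_of_im_nonpos (not_lt.mp hw)]

theorem qq_T_smul (τ : ℍ) : qq (ModularGroup.T • τ) = qq τ := by
  rw [qq, qq, UpperHalfPlane.modular_T_smul]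
  simp only [Function.Periodic.qParam, UpperHalfPlane.coe_vadd, Complex.ofReal_one, div_one]
  rw [mul_add, mul_one, Complex.exp_add, Complex.exp_two_pi_mul_I, one_mul]

theorem tendsto_qq_mul_jfun : Tendsto (fun τ => qq τ * jfun τ) atImInfty (𝓝 1) := by
  have h := (HasTExp.single (N := 1) 1 1).mul (hasTExp_jfun_level 1)
  have hc : ∀ n : ℤ, ((HahnSeries.single 1 (1 : Kbar) : LaurentSeries Kbar) *
      qExpand Kbar 1 (Jser 1)).coeff n = (qExpand Kbar 1 (Jser 1)).coeff (n - 1) := by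
    intro n
    rw [HahnSeries.coeff_single_mul, one_mul]
  have h2 := h.tendsto (by
    intro n hn
    rw [hc]
    have := coeff_qExpand_Jser_pow_of_lt 1 1 (n - 1) (by push_cast; omega)
    simpa using this)
  rw [hc] at h2
  have h3 := coeff_qExpand_Jser_pow_self 1 1
  simp only [pow_one, Nat.cast_one, mul_one] at h3
  rw [show (0 : ℤ) - 1 = -1 by norm_num, h3, map_one] at h2
  refine h2.congr fun τ => ?_
  simp [qq]

theorem isBigO_inv_qq :
    (fun τ : ℍ => (qq τ)⁻¹) =O[atImInfty] fun τ : ℍ => Real.exp (2 * π * τ.im) := by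
  refine Asymptotics.IsBigO.of_bound 1 (Eventually.of_forall fun τ => ?_)
  rw [norm_inv, norm_qq, ← Real.exp_neg, Real.norm_eq_abs, abs_of_pos (Real.exp_pos _), one_mul]
  apply le_of_eq
  congr 1
  ring

end LevelOne

open LevelOne

theorem expGrowth_jfun : ExpGrowth jfun := by
  refine ⟨2 * π, ?_⟩
  have h1 : (fun τ => qq τ * jfun τ) =O[atImInfty] (fun _ : ℍ => (1 : ℝ)) :=
    tendsto_qq_mul_jfun.isBigO_one ℝ
  have h3 := isBigO_inv_qq.mul h1
  refine h3.congr (fun τ => ?_) (fun τ => by rw [mul_one])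
  rw [← mul_assoc, inv_mul_cancel₀ (qq_ne_zero τ), one_mul]

namespace LevelOne

theorem isBoundedAtImInfty_mul_qq_pow {f : ℍ → ℂ} (hg : ExpGrowth f) :
    ∃ m : ℕ, IsBoundedAtImInfty (fun τ => f τ * qq τ ^ m) := by
  obtain ⟨c, hc⟩ := hg
  obtain ⟨m, hm⟩ := exists_nat_ge (c / (2 * π))
  refine ⟨m, ?_⟩
  have h1 : (fun τ : ℍ => qq τ ^ m) =O[atImInfty] fun τ : ℍ => Real.exp (-(c * τ.im)) := by
    refine Asymptotics.IsBigO.of_bound 1 (Eventually.of_forall fun τ => ?_)
    rw [norm_pow, norm_qq, ← Real.exp_nat_mul, Real.norm_eq_abs, abs_of_pos (Real.exp_pos _),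
      one_mul, Real.exp_le_exp]
    have h2 : c ≤ m * (2 * π) := by
      rwa [div_le_iff₀ (by positivity)] at hm
    have h3 := mul_le_mul_of_nonneg_right h2 τ.im_pos.le
    linarith
  have h2 := hc.mul h1
  refine h2.congr (fun τ => rfl) (fun τ => ?_)
  rw [← Real.exp_add, add_neg_cancel, Real.exp_zero]
  rfl

theorem exists_poly_aux (m : ℕ) : ∀ (f : ℍ → ℂ) (_ : MDiff f)
    (_ : ∀ (γ : SL(2, ℤ)) (τ : ℍ), f (γ • τ) = f τ)
    (_ : IsBoundedAtImInfty (fun τ => f τ * qq τ ^ m)),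
    ∃ p : Polynomial ℂ, ∀ τ : ℍ, f τ = p.eval (jfun τ) := by
  induction m with
  | zero =>
    intro f hf hinv hb
    obtain ⟨c, hc⟩ := const_of_invariant_of_bounded f hf hinv (by simpa using hb)
    exact ⟨Polynomial.C c, fun τ => by simp [hc]⟩
  | succ m ih =>
    intro f hf hinv hb
    set g : ℍ → ℂ := fun τ => f τ * qq τ ^ (m + 1) with hg
    set J : ℍ → ℂ := fun τ => (qq τ * jfun τ) ^ (m + 1) with hJ
    have hgd : MDiff g := hf.mul (mdiff_qq.pow (m + 1))
    have hJd : MDiff J := (mdiff_qq.mul Stubs.mdiff_jfun).pow (m + 1)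
    have hgp : Function.Periodic (g ∘ ofComplex) 1 :=
      periodic_comp_ofComplex fun τ => by simp only [hg, hinv, qq_T_smul]
    have hJp : Function.Periodic (J ∘ ofComplex) 1 :=
      periodic_comp_ofComplex fun τ => by simp only [hJ, Stubs.jfun_smul, qq_T_smul]
    have hJt : Tendsto J atImInfty (𝓝 1) := by simpa using tendsto_qq_mul_jfun.pow (m + 1)
    have hJb : IsBoundedAtImInfty J := hJt.isBigO_one ℝ
    have e1 := exp_decay_sub_atImInfty one_pos hgp hgd hb
    have e2 := exp_decay_sub_atImInfty one_pos hJp hJd hJb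
    rw [show valueAtInfty J = 1 from hJt.limUnder_eq] at e2
    set a := valueAtInfty g with ha
    obtain ⟨p, hp⟩ := ih (fun τ => f τ - a * jfun τ ^ (m + 1))
      (hf.sub (mdifferentiable_const.mul (Stubs.mdiff_jfun.pow _)))
      (fun γ τ => by simp only [hinv, Stubs.jfun_smul]) (by
        have e3 := (e1.sub (e2.const_mul_left a)).mul isBigO_inv_qq
        refine e3.congr (fun τ => ?_) (fun τ => ?_)
        · have := qq_ne_zero τ
          simp only [hg, hJ]
          field_simp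
          ring
        · rw [← Real.exp_add]
          simp)
    exact ⟨p + Polynomial.C a * Polynomial.X ^ (m + 1), fun τ => by
      simp only [Polynomial.eval_add, Polynomial.eval_mul, Polynomial.eval_C, Polynomial.eval_pow,
        Polynomial.eval_X, ← hp]
      ring⟩

end LevelOne

theorem exists_poly_of_invariant (f : ℍ → ℂ) (hf : MDiff f)
    (hinv : ∀ (γ : SL(2, ℤ)) (τ : ℍ), f (γ • τ) = f τ) (hg : ExpGrowth f) :
    ∃ p : Polynomial ℂ, ∀ τ : ℍ, f τ = p.eval (jfun τ) := by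
  obtain ⟨m, hm⟩ := isBoundedAtImInfty_mul_qq_pow hg
  exact exists_poly_aux m f hf hinv hm

theorem isWH_jfun (Γ : Subgroup SL(2, ℤ)) : IsWH Γ jfun :=
  ⟨Stubs.mdiff_jfun, fun γ _ τ => Stubs.jfun_smul γ τ, fun γ => by
    simpa only [Stubs.jfun_smul] using expGrowth_jfun⟩

/-- `j` as an element of `AG Γ`. -/
noncomputable def jG (Γ : Subgroup SL(2, ℤ)) : AG Γ := ⟨jfun, isWH_jfun Γ⟩

variable {Γ : Subgroup SL(2, ℤ)}

theorem aeval_jG_apply (p : Polynomial ℂ) (τ : ℍ) :
    (Polynomial.aeval (jG Γ) p).1 τ = p.eval (jfun τ) := by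
  have h := Polynomial.aeval_algHom_apply
    ((Pi.evalAlgHom ℂ (fun _ : ℍ => ℂ) τ).comp (AG Γ).val) (jG Γ) p
  have h2 : ((Pi.evalAlgHom ℂ (fun _ : ℍ => ℂ) τ).comp (AG Γ).val) (jG Γ) = jfun τ := rfl
  rw [h2] at h
  rw [← Polynomial.coe_aeval_eq_eval, h]
  rfl

theorem smul_jG [Γ.Normal] (γ : SL(2, ℤ)) : γ • jG Γ = jG Γ :=
  Subtype.ext (funext fun τ => Stubs.jfun_smul γ⁻¹ τ)

/-- `j` is transcendental over `ℂ` (it is surjective: `Stubs.jfun_surjective`). -/
theorem aeval_jG_injective : Function.Injective (Polynomial.aeval (R := ℂ) (jG Γ)) := by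
  rw [injective_iff_map_eq_zero]
  intro p hp
  apply Polynomial.funext
  intro z
  obtain ⟨τ, rfl⟩ := Stubs.jfun_surjective z
  rw [← aeval_jG_apply (Γ := Γ), hp, Polynomial.eval_zero]
  rfl

theorem exists_poly_of_invariant_AG [Γ.Normal] (f : AG Γ) (hf : ∀ γ : SL(2, ℤ), γ • f = f) :
    ∃ p : Polynomial ℂ, f = Polynomial.aeval (jG Γ) p := by
  obtain ⟨p, hp⟩ := exists_poly_of_invariant f.1 f.2.mdiff (fun γ τ => by
    have h := congrArg (fun g : AG Γ => g.1 τ) (hf γ⁻¹)
    simpa only [smul_AG_apply, inv_inv] using h) (by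
    simpa only [one_smul] using f.2.growth 1)
  exact ⟨p, Subtype.ext (funext fun τ => by rw [hp, aeval_jG_apply])⟩

/-- use `S24.B.exists_invariant_fraction` and `finite_orbit_AG`. -/
theorem invariants_LG [Γ.Normal] [Γ.FiniteIndex] (g : LG Γ) (hg : ∀ γ : SL(2, ℤ), γ • g = g) :
    ∃ p q : Polynomial ℂ, q ≠ 0 ∧ g = algebraMap (AG Γ) (LG Γ) (Polynomial.aeval (jG Γ) p) /
      algebraMap (AG Γ) (LG Γ) (Polynomial.aeval (jG Γ) q) := by
  obtain ⟨a, b, hb, ha', hb', hgab⟩ :=
    exists_invariant_fraction (G := SL(2, ℤ)) (A := AG Γ) (L := LG Γ) finite_orbit_AG g hg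
  obtain ⟨p, rfl⟩ := exists_poly_of_invariant_AG a ha'
  obtain ⟨q, rfl⟩ := exists_poly_of_invariant_AG b hb'
  refine ⟨p, q, ?_, hgab⟩
  rintro rfl
  exact hb (map_zero _)

end Fermat.Agent.NV2
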