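import Fermat.Agent.NV2.Defs

set_option autoImplicit false

namespace Fermat.Agent.NV2

open UpperHalfPlane Filter
open scoped MatrixGroups Real Manifold

namespace TExpExists

theorem mdiff_qParam (h : ℝ) : MDiff (fun τ : ℍ => Function.Periodic.qParam h τ) := by
  rw [UpperHalfPlane.mdifferentiable_iff]
  have h1 : DifferentiableOn ℂ (Function.Periodic.qParam h) {z | 0 < z.im} :=
    (Function.Periodic.differentiable_qParam).differentiableOn
  refine h1.congr ?_
  intro z hz
  simp only [Function.comp_apply]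
  rw [ofComplex_apply_of_im_pos hz]

theorem periodic_of_T_pow {M : ℕ} {f : ℍ → ℂ}
    (hper : ∀ τ : ℍ, f (ModularGroup.T ^ M • τ) = f τ) :
    Function.Periodic (f ∘ ofComplex) (M : ℝ) := by
  intro w
  by_cases hw : 0 < w.im
  · have hw' : 0 < (w + (M : ℝ)).im := by simpa using hw
    simp only [Function.comp_apply, ofComplex_apply_of_im_pos hw', ofComplex_apply_of_im_pos hw]
    rw [← hper ⟨w, hw⟩]
    congr 1
    have := UpperHalfPlane.modular_T_zpow_smul ⟨w, hw⟩ (M : ℤ)
    rw [zpow_natCast] at this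
    rw [this]
    ext
    simp [add_comm]
  · have hw1 : w.im ≤ 0 := not_lt.mp hw
    have hw' : (w + (M : ℝ)).im ≤ 0 := by simpa using hw1
    simp only [Function.comp_apply]
    rw [ofComplex_apply_of_im_nonpos hw', ofComplex_apply_of_im_nonpos hw1]

theorem qParam_T_pow (M : ℕ) [NeZero M] (τ : ℍ) :
    Function.Periodic.qParam (M : ℝ) ((ModularGroup.T ^ M • τ : ℍ) : ℂ) =
      Function.Periodic.qParam (M : ℝ) τ := by
  have := UpperHalfPlane.modular_T_zpow_smul τ (M : ℤ)
  rw [zpow_natCast] at this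
  rw [this]
  have hM : (M : ℂ) ≠ 0 := by exact_mod_cast NeZero.ne M
  simp only [Function.Periodic.qParam, UpperHalfPlane.coe_vadd]
  have h1 : 2 * (π : ℂ) * Complex.I * ((((M : ℤ) : ℝ) : ℂ) + (τ : ℂ)) / ((M : ℝ) : ℂ) =
      2 * π * Complex.I * τ / ((M : ℝ) : ℂ) + 2 * π * Complex.I := by
    push_cast
    field_simp
    ring
  rw [h1, Complex.exp_add, Complex.exp_two_pi_mul_I, mul_one]

/-- bounded after multiplication by a power of `t`. -/
theorem exists_bounded (M : ℕ) [NeZero M] {f : ℍ → ℂ} (hg : ExpGrowth f) :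
    ∃ k : ℕ, IsBoundedAtImInfty (fun τ : ℍ => f τ * Function.Periodic.qParam (M : ℝ) τ ^ k) := by
  obtain ⟨c, hc⟩ := hg
  have hM : (0 : ℝ) < M := by exact_mod_cast Nat.pos_of_ne_zero (NeZero.ne M)
  obtain ⟨k, hk⟩ := exists_nat_ge (c * M / (2 * π))
  refine ⟨k, ?_⟩
  have h1 : (fun τ : ℍ => Function.Periodic.qParam (M : ℝ) τ ^ k) =O[atImInfty]
      fun τ : ℍ => Real.exp (-c * τ.im) := by
    refine Asymptotics.IsBigO.of_bound 1 (Filter.Eventually.of_forall fun τ => ?_)
    rw [norm_pow, Function.Periodic.norm_qParam, ← Real.exp_nat_mul, Real.norm_eq_abs,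
      abs_of_pos (Real.exp_pos _), one_mul]
    apply Real.exp_le_exp.mpr
    have h3 : c * M ≤ k * (2 * π) := by
      rwa [div_le_iff₀ (by positivity)] at hk
    have h4 : c ≤ k * (2 * π) / M := by
      rwa [le_div_iff₀ hM]
    have h5 : (k : ℝ) * (-2 * π * (τ : ℂ).im / M) = -(k * (2 * π) / M) * τ.im := by
      rw [UpperHalfPlane.coe_im]; ring
    rw [h5]
    have := mul_le_mul_of_nonneg_right h4 τ.im_pos.le
    linarith
  have h2 := hc.mul h1
  simp only [← Real.exp_add] at h2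
  have h3 : ∀ τ : ℍ, c * τ.im + -c * τ.im = 0 := fun τ => by ring
  simp only [h3, Real.exp_zero] at h2
  exact h2

theorem exists_series (M : ℕ) [NeZero M] {f : ℍ → ℂ} (hf : MDiff f)
    (hper : ∀ τ : ℍ, f (ModularGroup.T ^ M • τ) = f τ) (hg : ExpGrowth f) :
    ∃ s : LaurentSeries ℂ, ∀ τ : ℍ,
      HasSum (fun n : ℤ => s.coeff n * Function.Periodic.qParam M τ ^ n) (f τ) := by
  have hM : (0 : ℝ) < M := by exact_mod_cast Nat.pos_of_ne_zero (NeZero.ne M)
  obtain ⟨k, hk⟩ := exists_bounded M hg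
  set g : ℍ → ℂ := fun τ : ℍ => f τ * Function.Periodic.qParam (M : ℝ) τ ^ k with hgdef
  have hgd : MDiff g := hf.mul ((mdiff_qParam M).pow k)
  have hgper : ∀ τ : ℍ, g (ModularGroup.T ^ M • τ) = g τ := fun τ => by
    simp only [hgdef, hper τ, qParam_T_pow M τ]
  have hsum := fun τ : ℍ => UpperHalfPlane.hasSum_qExpansion hM (periodic_of_T_pow hgper) hgd hk τ
  set P : PowerSeries ℂ := UpperHalfPlane.qExpansion (M : ℝ) g with hP
  refine ⟨HahnSeries.single (-(k : ℤ)) 1 * HahnSeries.ofPowerSeries ℤ ℂ P, fun τ => ?_⟩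
  set t : ℂ := Function.Periodic.qParam (M : ℝ) τ with ht
  have ht0 : t ≠ 0 := Function.Periodic.qParam_ne_zero _
  have hcoeff : ∀ n : ℤ, (HahnSeries.single (-(k : ℤ)) (1 : ℂ) * HahnSeries.ofPowerSeries ℤ ℂ P).coeff n
      = if n + k < 0 then 0 else P.coeff (n + k).natAbs := by
    intro n
    rw [HahnSeries.coeff_single_mul, one_mul, sub_neg_eq_add]
    exact PowerSeries.coeff_coe P (n + k)
  have hi : Function.Injective (fun m : ℕ => (m : ℤ) - k) := fun a b hab => by
    simpa using hab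
  rw [← hi.hasSum_iff]
  · have h1 := (hsum τ).mul_right (t ^ (-(k : ℤ)))
    have h2 : g τ * t ^ (-(k : ℤ)) = f τ := by
      simp only [hgdef, ← ht]
      rw [mul_assoc, ← zpow_natCast, ← zpow_add₀ ht0]
      simp
    rw [h2] at h1
    refine h1.congr_fun ?_
    intro m
    simp only [Function.comp_apply, hcoeff, smul_eq_mul]
    have h3 : ¬ ((m : ℤ) - k + k < 0) := by simp
    rw [if_neg h3, mul_assoc, ← zpow_natCast t m, ← zpow_add₀ ht0]
    simp [sub_eq_add_neg]
  · intro n hn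
    rw [hcoeff]
    have : n + k < 0 := by
      by_contra hcon
      apply hn
      refine ⟨(n + k).toNat, ?_⟩
      simp only
      rw [Int.toNat_of_nonneg (not_lt.mp hcon)]
      ring
    rw [if_pos this, zero_mul]

end TExpExists

end Fermat.Agent.NV2
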