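/-
Cluster GAL, block NV2 (owner of the skeleton: helper91).  TASKS NV2-T1 (API), NV2-T2 (existence).
Statements are frozen interfaces (T1 proofs: helper111).

Expansions at `i∞` with COMPLEX coefficients in the parameter `t = exp (2 π i τ / M)`, valid for `im τ` large.
Model: `S24/B/TExpBasic.lean`, `S24/B/TExpTri.lean` (`HasTExp`, coefficients in `ℚ̄`, valid on all of `ℍ`): the
proofs of `add`, `mul`, `unique` can be copied almost verbatim (replace `iota (s.coeff n)` by `s.coeff n` and
work under `∀ᶠ τ in atImInfty`).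
-/
import Fermat.Agent.NV2.Defs
import Fermat.Agent.NV2.TExpExists
import Fermat.Agent.S24.B.TExpTri
import Fermat.Agent.S24.B.Laurent
import Fermat.Agent.S24.B.TExpBasic

set_option autoImplicit false

namespace Fermat.Agent.NV2

open UpperHalfPlane Filter Fermat.Agent.S24 Fermat.Agent.S24.B ModularCurve
open scoped MatrixGroups Real Manifold

/-- `f` has the expansion `s` at `i∞` in the parameter `t = exp (2 π i τ / M)`. -/
def HasTExpC (M : ℕ) (f : ℍ → ℂ) (s : LaurentSeries ℂ) : Prop :=
  ∀ᶠ τ : ℍ in atImInfty,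
    HasSum (fun n : ℤ => s.coeff n * Function.Periodic.qParam M τ ^ n) (f τ)

/-- `exp (2 π i / M)` as a unit. -/
noncomputable def zetaC (M : ℕ) : ℂˣ :=
  Units.mk0 (Complex.exp (2 * π * Complex.I / M)) (Complex.exp_ne_zero _)

theorem isPrimitiveRoot_zetaC (M : ℕ) [NeZero M] : IsPrimitiveRoot (zetaC M) M := by
  rw [← IsPrimitiveRoot.coe_units_iff]
  exact Complex.isPrimitiveRoot_exp M (NeZero.ne M)

variable {M : ℕ} {f g : ℍ → ℂ} {s s' : LaurentSeries ℂ}

/-! ### TASK NV2-T1 -/

section AuxC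

open Complex Topology Function

theorem hasSum_fiber_mulC (s t : LaurentSeries ℂ) (q : ℂ) (hq0 : q ≠ 0) (n : ℤ) :
    HasSum (fun a : ℤ => (s.coeff a * q ^ a) * (t.coeff (n - a) * q ^ (n - a)))
      ((s * t).coeff n * q ^ n) := by
  have key : ∀ a : ℤ, (s.coeff a * q ^ a) * (t.coeff (n - a) * q ^ (n - a))
      = (s.coeff a * t.coeff (n - a)) * q ^ n := by
    intro a
    rw [show q ^ n = q ^ a * q ^ (n - a) by rw [← zpow_add₀ hq0]; congr 1; ring]
    ring
  simp_rw [key]
  rw [HahnSeries.coeff_mul, Finset.sum_mul]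
  have h : HasSum (fun a : ℤ => (s.coeff a * t.coeff (n - a)) * q ^ n)
      (∑ a ∈ (Finset.antidiagonal s.isPWO_support t.isPWO_support n).image Prod.fst,
        (s.coeff a * t.coeff (n - a)) * q ^ n) := hasSum_sum_of_ne_finset_zero (by
      intro a ha
      by_contra hne
      apply ha
      have h1 : s.coeff a * t.coeff (n - a) ≠ 0 := by
        intro h0
        apply hne
        simp [h0]
      rw [Finset.mem_image]
      refine ⟨(a, n - a), ?_, rfl⟩
      rw [Finset.mem_antidiagonal]
      exact ⟨left_ne_zero_of_mul h1, right_ne_zero_of_mul h1, by simp⟩)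
  rw [Finset.sum_image] at h
  · convert h using 1
    refine Finset.sum_congr rfl fun ij hij => ?_
    rw [Finset.mem_antidiagonal] at hij
    rw [show n - ij.1 = ij.2 by rw [← hij.2.2]; ring]
  · intro x hx y hy hxy
    rw [Finset.mem_coe, Finset.mem_antidiagonal] at hx hy
    have : x.2 = y.2 := by
      have h1 := hx.2.2
      have h2 := hy.2.2
      have h3 : x.1 = y.1 := hxy
      omega
    exact Prod.ext hxy this

theorem hasSum_mul_auxC (s t : LaurentSeries ℂ) (q : ℂ) (hq0 : q ≠ 0) (a b : ℂ)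
    (h1 : HasSum (fun n : ℤ => s.coeff n * q ^ n) a)
    (h2 : HasSum (fun n : ℤ => t.coeff n * q ^ n) b) :
    HasSum (fun n : ℤ => (s * t).coeff n * q ^ n) (a * b) :=
  HasSum.prod_fiberwise (hasSum_mul_aux0 _ _ a b h1 h2) (fun n => hasSum_fiber_mulC s t q hq0 n)

theorem tendsto_of_eventually_hasSum_nat {h : ℝ} (hh : 0 < h) {f : ℍ → ℂ} {c : ℕ → ℂ}
    (hf : ∀ᶠ τ : ℍ in atImInfty, HasSum (fun m : ℕ => c m * Periodic.qParam h τ ^ m) (f τ)) :
    Tendsto f atImInfty (𝓝 (c 0)) := by
  set p : FormalMultilinearSeries ℂ ℂ ℂ := .ofScalars ℂ c with hp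
  obtain ⟨τ₀, hτ₀⟩ := hf.exists
  have hrad : 0 < p.radius := by
    have hq0 : Periodic.qParam h τ₀ ≠ 0 := Periodic.qParam_ne_zero _
    have h1 : (‖Periodic.qParam h τ₀‖₊ : ENNReal) ≤ p.radius := by
      apply FormalMultilinearSeries.le_radius_of_summable
      have := hτ₀.summable.norm
      simpa [hp, norm_mul, mul_comm] using this
    refine lt_of_lt_of_le ?_ h1
    simpa using hq0
  have hball := p.hasFPowerSeriesOnBall hrad
  have hcont : ContinuousAt p.sum 0 := hball.hasFPowerSeriesAt.continuousAt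
  have hsum : ∀ q : ℂ, p.sum q = ∑' n, c n * q ^ n := by
    intro q
    simp [FormalMultilinearSeries.sum, hp, mul_comm]
  have h0 : p.sum 0 = c 0 := by
    rw [hsum, tsum_eq_single 0]
    · simp
    · intro n hn
      simp [hn]
  have hfeq : (fun τ : ℍ => p.sum (Periodic.qParam h τ)) =ᶠ[atImInfty] f := by
    filter_upwards [hf] with τ hτ
    rw [hsum, hτ.tsum_eq]
  rw [← h0]
  exact (hcont.tendsto.comp (qParam_tendsto_atImInfty hh)).congr' hfeq

end AuxC

theorem HasTExpC.single (n : ℤ) (c : ℂ) :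
    HasTExpC M (fun τ => c * Function.Periodic.qParam M τ ^ n) (HahnSeries.single n c) :=
  Eventually.of_forall fun τ => by
    have := hasSum_single (f := fun m : ℤ =>
      ((HahnSeries.single n c : LaurentSeries ℂ).coeff m)
        * Function.Periodic.qParam M τ ^ m) n (by
        intro m hm
        simp [HahnSeries.coeff_single_of_ne hm])
    simpa using this

theorem HasTExpC.const (c : ℂ) : HasTExpC M (fun _ => c) (HahnSeries.C c) := by
  simpa using HasTExpC.single (M := M) 0 c

theorem HasTExpC.add (h : HasTExpC M f s) (h' : HasTExpC M g s') : HasTExpC M (f + g) (s + s') := by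
  filter_upwards [h, h'] with τ h1 h2
  simpa [add_mul] using h1.add h2

theorem HasTExpC.neg (h : HasTExpC M f s) : HasTExpC M (-f) (-s) := by
  filter_upwards [h] with τ h1
  simpa using h1.neg

theorem HasTExpC.sub (h : HasTExpC M f s) (h' : HasTExpC M g s') : HasTExpC M (f - g) (s - s') := by
  filter_upwards [h, h'] with τ h1 h2
  simpa [sub_mul] using h1.sub h2

theorem HasTExpC.mul [NeZero M] (h : HasTExpC M f s) (h' : HasTExpC M g s') :
    HasTExpC M (f * g) (s * s') := by
  filter_upwards [h, h'] with τ h1 h2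
  exact hasSum_mul_auxC s s' _ (Function.Periodic.qParam_ne_zero _) _ _ h1 h2

theorem HasTExpC.eventually_hasSum_nat (h : HasTExpC M f s) (hs : ∀ n : ℤ, n < 0 → s.coeff n = 0) :
    ∀ᶠ τ : ℍ in atImInfty,
      HasSum (fun m : ℕ => s.coeff (m : ℤ) * Function.Periodic.qParam M τ ^ m) (f τ) := by
  filter_upwards [h] with τ h1
  have := (Function.Injective.hasSum_iff
    (f := fun n : ℤ => s.coeff n * Function.Periodic.qParam M τ ^ n)
    (g := (Nat.cast : ℕ → ℤ)) Nat.cast_injective (by
      intro x hx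
      have hx0 : x < 0 := by
        by_contra hx0
        exact hx ⟨x.toNat, by simp [Int.toNat_of_nonneg (not_lt.mp hx0)]⟩
      simp [hs x hx0])).mpr h1
  simpa [Function.comp_def] using this

/-- a function with an expansion without polar part tends to the constant coefficient. -/
theorem HasTExpC.tendsto [NeZero M] (h : HasTExpC M f s) (hs : ∀ n : ℤ, n < 0 → s.coeff n = 0) :
    Tendsto f atImInfty (nhds (s.coeff 0)) := by
  have hM : (0 : ℝ) < (M : ℝ) := by exact_mod_cast Nat.pos_of_ne_zero (NeZero.ne M)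
  exact tendsto_of_eventually_hasSum_nat hM (c := fun m : ℕ => s.coeff (m : ℤ))
    (h.eventually_hasSum_nat hs)

theorem HasTExpC.series_eq_zero [NeZero M] (h : HasTExpC M 0 s) : s = 0 := by
  by_contra hs
  have h1 := (HasTExpC.single (M := M) (-s.order) 1).mul h
  rw [mul_zero] at h1
  have hc : ∀ n : ℤ, ((HahnSeries.single (-s.order) (1 : ℂ) : LaurentSeries ℂ) * s).coeff n
      = s.coeff (n + s.order) := by
    intro n
    rw [HahnSeries.coeff_single_mul, one_mul, sub_neg_eq_add]
  have h2 := h1.tendsto (by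
    intro n hn
    rw [hc]
    exact HahnSeries.coeff_eq_zero_of_lt_order (by omega))
  rw [hc, zero_add] at h2
  have h3 : s.coeff s.order = 0 :=
    tendsto_nhds_unique h2 (tendsto_const_nhds (x := (0 : ℂ)))
  exact hs (HahnSeries.coeff_order_eq_zero.mp h3)

theorem HasTExpC.unique [NeZero M] (h : HasTExpC M f s) (h' : HasTExpC M f s') : s = s' := by
  have h0 := h.sub h'
  rw [sub_self] at h0
  exact sub_eq_zero.mp h0.series_eq_zero

/-- identity theorem -/
theorem HasTExpC.eq_zero [NeZero M] (hf : MDiff f) (h : HasTExpC M f 0) : f = 0 := by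
  have hev : ∀ᶠ τ : ℍ in atImInfty, f τ = 0 := by
    filter_upwards [h] with τ h1
    simp only [HahnSeries.coeff_zero, zero_mul] at h1
    exact h1.unique hasSum_zero
  obtain ⟨A, hA⟩ := (atImInfty_mem _).mp hev
  let τ₀ : ℍ := ⟨⟨0, max A 0 + 1⟩, by
    show 0 < max A 0 + 1
    positivity⟩
  have hτ₀ : A < τ₀.im := by
    show A < max A 0 + 1
    exact lt_of_le_of_lt (le_max_left A 0) (lt_add_one _)
  have hopen : IsOpen {z : ℍ | A < z.im} := isOpen_lt continuous_const UpperHalfPlane.continuous_im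
  have h1 : ∀ᶠ z in nhds τ₀, f z = 0 := by
    filter_upwards [hopen.mem_nhds hτ₀] with z hz
    exact hA z (le_of_lt hz)
  exact UpperHalfPlane.eq_zero_of_frequently hf (τ := τ₀)
    (Filter.Eventually.frequently (h1.filter_mono nhdsWithin_le_nhds))

theorem HasTExpC.of_hasTExp {σ : LaurentSeries Kbar} (h : HasTExp M f σ) :
    HasTExpC M f (coeffMap iota σ) := Eventually.of_forall fun τ => h τ

/-- `τ ↦ τ - 1` multiplies `t` by `exp (- 2 π i / M)`. -/
theorem HasTExpC.comp_T_inv [NeZero M] (h : HasTExpC M f s) :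
    HasTExpC M (fun τ => f (ModularGroup.T⁻¹ • τ)) (twist (zetaC M)⁻¹ s) := by
  have hcoe : ∀ τ : ℍ, ((ModularGroup.T⁻¹ • τ : ℍ) : ℂ) = (τ : ℂ) - 1 := by
    intro τ
    have := UpperHalfPlane.modular_T_zpow_smul τ (-1)
    rw [zpow_neg_one] at this
    rw [this, UpperHalfPlane.coe_vadd]
    push_cast
    ring
  have him : ∀ τ : ℍ, (ModularGroup.T⁻¹ • τ : ℍ).im = τ.im := by
    intro τ
    have := congrArg Complex.im (hcoe τ)
    simpa using this
  have htend : Tendsto (fun τ : ℍ => (ModularGroup.T⁻¹ • τ : ℍ)) atImInfty atImInfty := by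
    rw [atImInfty, tendsto_comap_iff]
    have : (UpperHalfPlane.im ∘ fun τ : ℍ => (ModularGroup.T⁻¹ • τ : ℍ)) = UpperHalfPlane.im :=
      funext him
    rw [this]
    exact tendsto_comap
  filter_upwards [htend.eventually h] with τ h1
  have hM : (M : ℂ) ≠ 0 := by exact_mod_cast NeZero.ne M
  have hq : Function.Periodic.qParam (M : ℝ) ((ModularGroup.T⁻¹ • τ : ℍ) : ℂ)
      = (((zetaC M)⁻¹ : ℂˣ) : ℂ) * Function.Periodic.qParam (M : ℝ) (τ : ℂ) := by
    rw [Units.val_inv_eq_inv_val, zetaC, Units.val_mk0, hcoe, Function.Periodic.qParam,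
      Function.Periodic.qParam, ← Complex.exp_neg, ← Complex.exp_add]
    congr 1
    push_cast
    field_simp
    ring
  convert h1 using 2 with n
  rw [twist_coeff, Units.val_zpow_eq_zpow_val, hq, mul_zpow]
  ring

theorem HasTExp.expGrowth [NeZero M] {σ : LaurentSeries Kbar} (h : HasTExp M f σ) :
    ExpGrowth f := by
  have hM : (0 : ℝ) < (M : ℝ) := by exact_mod_cast Nat.pos_of_ne_zero (NeZero.ne M)
  have h1 := (Fermat.Agent.S24.HasTExp.single (N := M) (-σ.order) 1).mul h
  have hc : ∀ n : ℤ, ((HahnSeries.single (-σ.order) (1 : Kbar) : LaurentSeries Kbar) * σ).coeff n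
      = σ.coeff (n + σ.order) := by
    intro n
    rw [HahnSeries.coeff_single_mul, one_mul, sub_neg_eq_add]
  have h2 : IsBoundedAtImInfty _ := h1.isBoundedAtImInfty (by
    intro n hn
    rw [hc]
    exact HahnSeries.coeff_eq_zero_of_lt_order (by omega))
  have h3 : ExpGrowth (fun τ : ℍ => Function.Periodic.qParam M τ ^ σ.order) := by
    refine ⟨-(2 * π * σ.order / M), ?_⟩
    refine Asymptotics.IsBigO.of_bound 1 (Eventually.of_forall fun τ => ?_)
    rw [norm_zpow, Function.Periodic.norm_qParam, Real.norm_eq_abs, abs_of_pos (Real.exp_pos _),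
      one_mul, ← Real.rpow_intCast, ← Real.exp_mul]
    apply le_of_eq
    congr 1
    simp only [UpperHalfPlane.coe_im]
    field_simp
  have h4 := (ExpGrowth.of_isBoundedAtImInfty h2).mul h3
  convert h4 using 1
  funext τ
  have hq : Function.Periodic.qParam (M : ℝ) (τ : ℂ) ≠ 0 := Function.Periodic.qParam_ne_zero _
  simp only [Pi.mul_apply, map_one, one_mul]
  rw [mul_comm (Function.Periodic.qParam (M : ℝ) (τ : ℂ) ^ (-σ.order)), mul_assoc,
    ← zpow_add₀ hq]
  simp

/-! ### TASK NV2-T2
`f` holomorphic, `f (τ + M) = f τ`, exponential growth.  Choose `k : ℕ` with `g = f * t^k` bounded at `i∞`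
(`‖t‖ = exp (-2 π im τ / M)`).  `g` is `M`-periodic, holomorphic and bounded, so `G = cuspFunction M g` is analytic
at `0` (Mathlib `Function.Periodic.*`, see also `ModularFormClass.hasSum_qExpansion_of_abs_lt` for the pattern);
its Taylor series `P` satisfies `g τ = ∑ P_n t^n` for `‖t‖` small; take
`s = single (-k) 1 * ofPowerSeries P`. -/

theorem exists_hasTExpC [NeZero M] (hf : MDiff f)
    (hper : ∀ τ : ℍ, f (ModularGroup.T ^ M • τ) = f τ) (hg : ExpGrowth f) :
    ∃ s : LaurentSeries ℂ, HasTExpC M f s := by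
  obtain ⟨s, hs⟩ := TExpExists.exists_series M hf hper hg
  exact ⟨s, Filter.Eventually.of_forall hs⟩

end Fermat.Agent.NV2
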