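/-
Cluster GAL, block NV2 (owner of the skeleton: helper91).  TASK NV2-T3.
(task done by helper226; the only open inputs are those of `TExpC.lean` / `LevelOne.lean`.)

The expansion homomorphisms at `i∞`: `texpC : AG Γ →+* ℂ((t))`, `texpCL : LG Γ →+* ℂ((t))`, for `M > 0` with
`T ^ M ∈ Γ`.  Model: `S24/B/TExp.lean` (`texp`), `S24/B/Field.lean` (`texpL`, `texpL_T_smul`),
`NV2/WExpG.lean` (`wexp`, `wexpL`).
-/
import Fermat.Agent.NV2.TExpC
import Fermat.Agent.NV2.LevelOne
import Fermat.Agent.S24.B.TExp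

set_option autoImplicit false

namespace Fermat.Agent.NV2

open UpperHalfPlane Filter Fermat.Agent.S24 Fermat.Agent.S24.B ModularCurve
open scoped MatrixGroups Real Manifold

variable {Γ : Subgroup SL(2, ℤ)} {M : ℕ} [NeZero M]

theorem exists_hasTExpC_AG (hM : ModularGroup.T ^ M ∈ Γ) (f : AG Γ) :
    ∃ s : LaurentSeries ℂ, HasTExpC M f.1 s :=
  exists_hasTExpC f.2.mdiff (fun τ => f.2.inv _ hM τ) (by simpa using f.2.growth 1)

/-- The expansion of an element of `AG Γ` at `i∞`. -/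
noncomputable def texpCFun (hM : ModularGroup.T ^ M ∈ Γ) (f : AG Γ) : LaurentSeries ℂ :=
  (exists_hasTExpC_AG hM f).choose

theorem hasTExpC_texpCFun (hM : ModularGroup.T ^ M ∈ Γ) (f : AG Γ) :
    HasTExpC M f.1 (texpCFun hM f) := (exists_hasTExpC_AG hM f).choose_spec

theorem texpCFun_eq (hM : ModularGroup.T ^ M ∈ Γ) {f : AG Γ} {s : LaurentSeries ℂ}
    (h : HasTExpC M f.1 s) : texpCFun hM f = s := (hasTExpC_texpCFun hM f).unique h

/-- The expansion homomorphism at `i∞`. -/
noncomputable def texpC (hM : ModularGroup.T ^ M ∈ Γ) : AG Γ →+* LaurentSeries ℂ where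
  toFun := texpCFun hM
  map_one' := texpCFun_eq hM (by
    have h := HasTExpC.const (M := M) 1
    rw [map_one] at h
    exact h)
  map_mul' f g := texpCFun_eq hM ((hasTExpC_texpCFun hM f).mul (hasTExpC_texpCFun hM g))
  map_zero' := texpCFun_eq hM (by
    have h := HasTExpC.const (M := M) 0
    rw [map_zero] at h
    exact h)
  map_add' f g := texpCFun_eq hM ((hasTExpC_texpCFun hM f).add (hasTExpC_texpCFun hM g))

theorem hasTExpC_texpC (hM : ModularGroup.T ^ M ∈ Γ) (f : AG Γ) : HasTExpC M f.1 (texpC hM f) :=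
  hasTExpC_texpCFun hM f

theorem texpC_eq (hM : ModularGroup.T ^ M ∈ Γ) {f : AG Γ} {s : LaurentSeries ℂ}
    (h : HasTExpC M f.1 s) : texpC hM f = s := texpCFun_eq hM h

theorem texpC_injective (hM : ModularGroup.T ^ M ∈ Γ) : Function.Injective (texpC hM) := by
  rw [injective_iff_map_eq_zero]
  intro f hf
  have h := hasTExpC_texpC hM f
  rw [hf] at h
  exact Subtype.ext (h.eq_zero f.2.mdiff)

theorem texpC_algebraMap (hM : ModularGroup.T ^ M ∈ Γ) (c : ℂ) :
    texpC hM (algebraMap ℂ (AG Γ) c) = HahnSeries.C c :=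
  texpC_eq hM (HasTExpC.const c)

theorem texpC_T_smul [Γ.Normal] (hM : ModularGroup.T ^ M ∈ Γ) (f : AG Γ) :
    texpC hM (ModularGroup.T • f) = twist (zetaC M)⁻¹ (texpC hM f) :=
  texpC_eq hM (hasTExpC_texpC hM f).comp_T_inv

/-- The expansion at `i∞` on the fraction field. -/
noncomputable def texpCL (hM : ModularGroup.T ^ M ∈ Γ) : LG Γ →+* LaurentSeries ℂ :=
  IsFractionRing.lift (texpC_injective hM)

theorem texpCL_algebraMap (hM : ModularGroup.T ^ M ∈ Γ) (f : AG Γ) :
    texpCL hM (algebraMap (AG Γ) (LG Γ) f) = texpC hM f :=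
  IsFractionRing.lift_algebraMap _ _

theorem texpCL_algebraMap_complex (hM : ModularGroup.T ^ M ∈ Γ) (c : ℂ) :
    texpCL hM (algebraMap ℂ (LG Γ) c) = HahnSeries.C c := by
  rw [IsScalarTower.algebraMap_apply ℂ (AG Γ) (LG Γ), texpCL_algebraMap, texpC_algebraMap]

theorem texpCL_T_smul [Γ.Normal] (hM : ModularGroup.T ^ M ∈ Γ) (g : LG Γ) :
    texpCL hM (ModularGroup.T • g) = twist (zetaC M)⁻¹ (texpCL hM g) := by
  have h : (texpCL hM).comp (MulSemiringAction.toRingHom SL(2, ℤ) (LG Γ) ModularGroup.T) =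
      (twist (zetaC M)⁻¹).comp (texpCL hM) := by
    refine IsLocalization.ringHom_ext (nonZeroDivisors (AG Γ)) ?_
    refine RingHom.ext fun f => ?_
    show texpCL hM (ModularGroup.T • algebraMap (AG Γ) (LG Γ) f) =
      twist (zetaC M)⁻¹ (texpCL hM (algebraMap (AG Γ) (LG Γ) f))
    rw [smul_algebraMap_AG, texpCL_algebraMap, texpCL_algebraMap, texpC_T_smul]
  exact RingHom.congr_fun h g

/-- An injective coefficient map preserves the order. -/
theorem order_coeffMap_of_injective {R S : Type*} [Field R] [Field S] (φ : R →+* S)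
    (σ : LaurentSeries R) : (coeffMap φ σ).order = σ.order := by
  by_cases hσ : σ = 0
  · subst hσ; rw [map_zero]; simp
  · refine order_eq_of_coeff ?_ ?_
    · rw [coeffMap_coeff]
      exact (map_ne_zero φ).2 (HahnSeries.coeff_order_eq_zero.not.2 hσ)
    · intro k hk
      rw [coeffMap_coeff, HahnSeries.coeff_eq_zero_of_lt_order hk, map_zero]

theorem texpC_jG (hM : ModularGroup.T ^ M ∈ Γ) :
    texpC hM (jG Γ) = coeffMap iota (qExpand Kbar M (Jser 1)) :=
  texpC_eq hM (HasTExpC.of_hasTExp (hasTExp_jfun_level M))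

/-- use `S24.B.hasTExp_jfun_level M`, `HasTExpC.of_hasTExp`, `S24.B.order_qExpand`, `order_Jser_one`. -/
theorem order_texpC_jG (hM : ModularGroup.T ^ M ∈ Γ) : (texpC hM (jG Γ)).order = -(M : ℤ) := by
  rw [texpC_jG, order_coeffMap_of_injective, order_qExpand, order_Jser_one]
  ring

theorem order_texpCL_jG_inv (hM : ModularGroup.T ^ M ∈ Γ) :
    (texpCL hM (algebraMap (AG Γ) (LG Γ) (jG Γ))⁻¹).order = (M : ℤ) := by
  rw [map_inv₀, texpCL_algebraMap]
  have h0 : (texpC hM (jG Γ)).order = -(M : ℤ) := order_texpC_jG hM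
  have h2 : texpC hM (jG Γ) ≠ 0 := by
    intro h
    rw [h, HahnSeries.order_zero] at h0
    have : (M : ℤ) ≠ 0 := by exact_mod_cast NeZero.ne M
    omega
  have h3 : (texpC hM (jG Γ))⁻¹ ≠ 0 := inv_ne_zero h2
  have h4 := HahnSeries.order_mul h2 h3
  rw [mul_inv_cancel₀ h2, HahnSeries.order_one, h0] at h4
  linarith

end Fermat.Agent.NV2
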