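/-
Cluster GAL, block NV2 (owner of the skeleton: helper91).  TASK NV2-E1.
Statements are frozen interfaces (proofs of E1: helper297).

For `Γ ≤ Γ(N)` the algebra `AL N` of S24 (generated over `ℚ̄` by the `j ∘ α`) is contained in `AG Γ`; hence
`LN N → LG Γ` and `PsiG : FN N →ₐ[ℚ̄] LG Γ`, equivariant for `SL(2,ℤ)`.
-/
import Fermat.Agent.NV2.TExpHom
import Fermat.Agent.S24.B.Invariants

set_option autoImplicit false

namespace Fermat.Agent.NV2

open UpperHalfPlane Fermat.Agent.S24 Fermat.Agent.S24.B CongruenceSubgroup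
open scoped MatrixGroups Real Manifold

variable {N : ℕ} [NeZero N] {Γ : Subgroup SL(2, ℤ)}

/-- `mdiff`: `S24.mdiff_of_mem_AL`; `inv`: `S24.B.apply_smul_of_mem_Gamma`; `growth`: `S24.comp_smul_mem_AL`,
`S24.B.exists_hasTExp_of_mem`, `HasTExp.expGrowth`. -/
theorem isWH_of_mem_AL (hΓ : Γ ≤ Gamma N) {f : ℍ → ℂ} (hf : f ∈ AL N) : IsWH Γ f := by
  refine ⟨Fermat.Agent.S24.mdiff_of_mem_AL hf, fun γ hγ τ => apply_smul_of_mem_Gamma γ (hΓ hγ) hf τ,
    fun γ => ?_⟩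
  obtain ⟨s, hs⟩ := exists_hasTExp_of_mem (comp_smul_mem_AL hf γ)
  exact HasTExp.expGrowth hs

/-- The inclusion `AL N → AG Γ`. -/
noncomputable def embAL (hΓ : Γ ≤ Gamma N) : AL N →ₐ[Kbar] AG Γ where
  toFun f := ⟨f.1, isWH_of_mem_AL hΓ f.2⟩
  map_one' := rfl
  map_mul' _ _ := rfl
  map_zero' := rfl
  map_add' _ _ := rfl
  commutes' _ := rfl

theorem embAL_apply (hΓ : Γ ≤ Gamma N) (f : AL N) (τ : ℍ) : (embAL hΓ f).1 τ = f.1 τ := rfl

theorem embAL_injective (hΓ : Γ ≤ Gamma N) : Function.Injective (embAL hΓ) :=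
  fun _ _ h => Subtype.ext (congrArg (fun x : AG Γ => x.1) h)

theorem embAL_smul [Γ.Normal] (hΓ : Γ ≤ Gamma N) (γ : SL(2, ℤ)) (f : AL N) :
    embAL hΓ (γ • f) = γ • embAL hΓ f := rfl

theorem embAL_jd_one (hΓ : Γ ≤ Gamma N) : embAL hΓ (jd N 1 (one_dvd N)) = jG Γ :=
  Subtype.ext (funext fun τ => jd_one_apply (N := N) τ)

theorem toLG_comp_embAL_injective (hΓ : Γ ≤ Gamma N) :
    Function.Injective ((IsScalarTower.toAlgHom Kbar (AG Γ) (LG Γ)).comp (embAL hΓ)) :=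
  (IsFractionRing.injective (AG Γ) (LG Γ)).comp (embAL_injective hΓ)

/-- The inclusion `LN N → LG Γ`. -/
noncomputable def embL (hΓ : Γ ≤ Gamma N) : LN N →ₐ[Kbar] LG Γ :=
  IsFractionRing.liftAlgHom (g := (IsScalarTower.toAlgHom Kbar (AG Γ) (LG Γ)).comp (embAL hΓ))
    (toLG_comp_embAL_injective hΓ)

theorem embL_algebraMap (hΓ : Γ ≤ Gamma N) (f : AL N) :
    embL hΓ (algebraMap (AL N) (LN N) f) = algebraMap (AG Γ) (LG Γ) (embAL hΓ f) :=
  IsFractionRing.liftAlgHom_apply .. |>.trans (IsFractionRing.lift_algebraMap _ _)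

theorem embL_smul [Γ.Normal] (hΓ : Γ ≤ Gamma N) (γ : SL(2, ℤ)) (g : LN N) :
    embL hΓ (γ • g) = γ • embL hΓ g := by
  have h : (embL hΓ).toRingHom.comp (MulSemiringAction.toRingHom SL(2, ℤ) (LN N) γ) =
      (MulSemiringAction.toRingHom SL(2, ℤ) (LG Γ) γ).comp (embL hΓ).toRingHom := by
    refine IsLocalization.ringHom_ext (nonZeroDivisors (AL N)) ?_
    refine RingHom.ext fun f => ?_
    show embL hΓ (γ • algebraMap (AL N) (LN N) f) = γ • embL hΓ (algebraMap (AL N) (LN N) f)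
    rw [smul_algebraMap_AL, embL_algebraMap, embL_algebraMap, smul_algebraMap_AG, embAL_smul]
  exact RingHom.congr_fun h g

/-- The function field of `X₀(N)` over `ℚ̄` inside `LG Γ`. -/
noncomputable def PsiG (hΓ : Γ ≤ Gamma N) : FN N →ₐ[Kbar] LG Γ := (embL hΓ).comp (Psi N)

theorem PsiG_jF (hΓ : Γ ≤ Gamma N) :
    PsiG hΓ (jF N) = algebraMap (AG Γ) (LG Γ) (jG Γ) := by
  show embL hΓ (Psi N (jF N)) = _
  rw [show Psi N (jF N) = algebraMap (AL N) (LN N) (jd N 1 (one_dvd N)) from Psi_JF 1 (one_dvd N),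
    embL_algebraMap, embAL_jd_one]

theorem smul_PsiG_of_mem_Gamma0 [Γ.Normal] (hΓ : Γ ≤ Gamma N) (γ : SL(2, ℤ)) (hγ : γ ∈ Gamma0 N)
    (f : FN N) : γ • PsiG hΓ f = PsiG hΓ f := by
  show γ • embL hΓ (Psi N f) = embL hΓ (Psi N f)
  rw [← embL_smul, smul_Psi_of_mem_Gamma0 γ hγ]

theorem mem_Gamma0_of_smul_PsiG [Γ.Normal] (hΓ : Γ ≤ Gamma N) (γ : SL(2, ℤ))
    (h : ∀ f : FN N, γ • PsiG hΓ f = PsiG hΓ f) : γ ∈ Gamma0 N := by
  refine mem_Gamma0_of_smul_Psi γ fun f => (embL hΓ).toRingHom.injective ?_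
  show embL hΓ (γ • Psi N f) = embL hΓ (Psi N f)
  rw [embL_smul]
  exact h f

theorem algebraMap_Kbar_LG (c : Kbar) : algebraMap Kbar (LG Γ) c = algebraMap ℂ (LG Γ) (iota c) :=
  IsScalarTower.algebraMap_apply Kbar ℂ (LG Γ) c

end Fermat.Agent.NV2
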