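/-
Cluster GAL, block NV2 (owner of the skeleton: helper91).  TASKS NV2-F1 (uniformisation), NV2-F2 (constant extension).
Statements are frozen interfaces.

`FC hΓ = ℂ · PsiG (FN N) ⊆ LG Γ`: the function field of `X₀(N)` over `ℂ`.
-/
import Fermat.Agent.NV2.Embed
import Fermat.Agent.NV2.Abs.Defs
import Fermat.Agent.S24.Export.Ramification
import Fermat.Agent.S27.H.ConstExtBasic
import Fermat.Agent.S27.H.TensorDomain
import Fermat.Agent.NV2.ConstExt

set_option autoImplicit false

namespace Fermat.Agent.NV2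

open UpperHalfPlane Fermat.Agent.S24 Fermat.Agent.S24.B Fermat.Agent.S24.FF CongruenceSubgroup
  IntermediateField AlgebraicCurve Fermat.Agent.S27.H
open scoped MatrixGroups Real Manifold

variable {N : ℕ} [NeZero N] {Γ : Subgroup SL(2, ℤ)}

/-- The function field of `X₀(N)` over `ℂ`, inside `LG Γ`. -/
noncomputable def FC (hΓ : Γ ≤ Gamma N) : IntermediateField ℂ (LG Γ) :=
  IntermediateField.adjoin ℂ (Set.range (PsiG hΓ))

theorem PsiG_mem_FC (hΓ : Γ ≤ Gamma N) (f : FN N) : PsiG hΓ f ∈ FC hΓ :=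
  IntermediateField.subset_adjoin _ _ ⟨f, rfl⟩

/-- `FN N → FC hΓ`. -/
noncomputable def toFC (hΓ : Γ ≤ Gamma N) : FN N →+* FC hΓ :=
  (PsiG hΓ).toRingHom.codRestrict (FC hΓ).toSubfield.toSubring (PsiG_mem_FC hΓ)

noncomputable instance instAlgebraFNFC (hΓ : Γ ≤ Gamma N) : Algebra (FN N) (FC hΓ) :=
  (toFC hΓ).toAlgebra

/-- shortcut instance (the generic search is very slow) -/
noncomputable instance instSMulFNFC (hΓ : Γ ≤ Gamma N) : SMul (FN N) (FC hΓ) :=
  (instAlgebraFNFC hΓ).toSMul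

/-- shortcut instance (the generic search is very slow) -/
noncomputable instance instModuleFNFC (hΓ : Γ ≤ Gamma N) : Module (FN N) (FC hΓ) :=
  (instAlgebraFNFC hΓ).toModule

theorem coe_algebraMap_FN_FC (hΓ : Γ ≤ Gamma N) (f : FN N) :
    ((algebraMap (FN N) (FC hΓ) f : FC hΓ) : LG Γ) = PsiG hΓ f := rfl

instance instIsScalarTowerKbarFNFC (hΓ : Γ ≤ Gamma N) : IsScalarTower Kbar (FN N) (FC hΓ) :=
  IsScalarTower.of_algebraMap_eq fun c => Subtype.ext (by
    rw [coe_algebraMap_FN_FC, AlgHom.commutes]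
    rfl)

/-- `j` as an element of `FC hΓ`. -/
noncomputable def jC (hΓ : Γ ≤ Gamma N) : FC hΓ := algebraMap (FN N) (FC hΓ) (jF N)

theorem coe_jC (hΓ : Γ ≤ Gamma N) : ((jC hΓ : FC hΓ) : LG Γ) = algebraMap (AG Γ) (LG Γ) (jG Γ) :=
  PsiG_jF hΓ

/-! ### TASK NV2-F1 -/

/-- by `aeval_jG_injective`. -/
theorem transcendental_jC (hΓ : Γ ≤ Gamma N) : Transcendental ℂ (jC hΓ) := by
  rw [transcendental_iff_injective, injective_iff_map_eq_zero]
  intro p hp
  have h1 : Polynomial.aeval ((jC hΓ : FC hΓ) : LG Γ) p = 0 := by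
    have h := Polynomial.aeval_algHom_apply (FC hΓ).val (jC hΓ) p
    rw [hp, map_zero] at h
    exact h
  rw [coe_jC, Polynomial.aeval_algebraMap_apply] at h1
  have h2 : Polynomial.aeval (jG Γ) p = 0 :=
    IsFractionRing.injective (AG Γ) (LG Γ) (h1.trans (map_zero _).symm)
  exact (injective_iff_map_eq_zero _).1 aeval_jG_injective p h2

/-- `smul_of_mem`: adjoin induction from `smul_PsiG_of_mem_Gamma0`; `mem_of_smul`: `mem_Gamma0_of_smul_PsiG`;
`invariants`: `invariants_LG`. -/
theorem isUniformization_FC [Γ.Normal] [Γ.FiniteIndex] (hΓ : Γ ≤ Gamma N) :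
    IsUniformization (jC hΓ) (Gamma0 N) (FC hΓ).val where
  smul_algebraMap := smul_algebraMap_complex
  smul_of_mem := by
    intro γ hγ f
    have key : ∀ x ∈ FC hΓ, γ • x = x := by
      intro x hx
      induction hx using IntermediateField.adjoin_induction with
      | mem x hx =>
        obtain ⟨f, rfl⟩ := hx
        exact smul_PsiG_of_mem_Gamma0 hΓ γ hγ f
      | algebraMap c => exact smul_algebraMap_complex γ c
      | add x y _ _ hx hy => rw [smul_add, hx, hy]
      | inv x _ hx => rw [smul_inv₀', hx]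
      | mul x y _ _ hx hy => rw [smul_mul', hx, hy]
    exact key f.1 f.2
  smul_x := by
    intro γ
    show γ • ((jC hΓ : FC hΓ) : LG Γ) = ((jC hΓ : FC hΓ) : LG Γ)
    rw [coe_jC, smul_algebraMap_AG, smul_jG]
  mem_of_smul := by
    intro γ h
    exact mem_Gamma0_of_smul_PsiG hΓ γ fun f => h ⟨PsiG hΓ f, PsiG_mem_FC hΓ f⟩
  invariants := by
    intro g hg
    obtain ⟨p, q, -, rfl⟩ := invariants_LG g hg
    have hmem : ∀ p : Polynomial ℂ, Polynomial.aeval (jC hΓ) p ∈ ℂ⟮jC hΓ⟯ := fun p =>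
      IntermediateField.algebra_adjoin_le_adjoin ℂ _ (Polynomial.aeval_mem_adjoin_singleton ℂ _)
    have hval : ∀ p : Polynomial ℂ, (FC hΓ).val (Polynomial.aeval (jC hΓ) p) =
        algebraMap (AG Γ) (LG Γ) (Polynomial.aeval (jG Γ) p) := by
      intro p
      rw [← Polynomial.aeval_algHom_apply, ← Polynomial.aeval_algebraMap_apply, ← coe_jC hΓ]
      rfl
    refine ⟨Polynomial.aeval (jC hΓ) p / Polynomial.aeval (jC hΓ) q,
      div_mem (hmem p) (hmem q), ?_⟩
    rw [map_div₀, hval, hval]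

/-- by `CL.finiteDimensional_of_isUniformization` and `S24.Formal.exists_finset_adjoin_eq_top N`. -/
theorem finiteDimensional_FC [Γ.Normal] [Γ.FiniteIndex] (hΓ : Γ ≤ Gamma N) :
    FiniteDimensional ℂ⟮jC hΓ⟯ (FC hΓ) := by
  classical
  obtain ⟨s₀, hs₀⟩ := S24.Formal.exists_finset_adjoin_eq_top N
  refine CL.finiteDimensional_of_isUniformization (isUniformization_FC hΓ)
    ⟨s₀.image (algebraMap (FN N) (FC hΓ)), ?_⟩
  have h1 : ∀ f : FN N, PsiG hΓ f ∈ IntermediateField.adjoin ℂ (PsiG hΓ '' (s₀ : Set (FN N))) := by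
    intro f
    have hf : f ∈ IntermediateField.adjoin Kbar (s₀ : Set (FN N)) := by rw [hs₀]; trivial
    induction hf using IntermediateField.adjoin_induction with
    | mem x hx => exact IntermediateField.subset_adjoin _ _ ⟨x, hx, rfl⟩
    | algebraMap c =>
      rw [AlgHom.commutes, algebraMap_Kbar_LG]
      exact IntermediateField.algebraMap_mem _ _
    | add x y _ _ hx hy => rw [map_add]; exact add_mem hx hy
    | inv x _ hx => rw [map_inv₀]; exact inv_mem hx
    | mul x y _ _ hx hy => rw [map_mul]; exact mul_mem hx hy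
  have h2 : FC hΓ ≤ IntermediateField.adjoin ℂ (PsiG hΓ '' (s₀ : Set (FN N))) := by
    refine IntermediateField.adjoin_le_iff.2 ?_
    rintro _ ⟨f, rfl⟩
    exact h1 f
  have h3 : (IntermediateField.adjoin ℂ
      ((s₀.image (algebraMap (FN N) (FC hΓ)) : Finset (FC hΓ)) : Set (FC hΓ))).map (FC hΓ).val =
      IntermediateField.adjoin ℂ (PsiG hΓ '' (s₀ : Set (FN N))) := by
    rw [IntermediateField.adjoin_map, Finset.coe_image, Set.image_image]
    rfl
  rw [eq_top_iff]
  intro x _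
  have hx := h2 x.2
  rw [← h3] at hx
  obtain ⟨y, hy, hyx⟩ := hx
  have : y = x := Subtype.ext hyx
  exact this ▸ hy

theorem isFF1_FC [Γ.Normal] [Γ.FiniteIndex] (hΓ : Γ ≤ Gamma N) : IsFF1 ℂ (FC hΓ) := by
  have := finiteDimensional_FC hΓ
  exact IsFF1.of_exists (jC hΓ)

/-! ### TASK NV2-F2
`IsConstExt`: use `IsConstExt.of_linearIndependent_of_adjoin` or the definition.
Generation is clear.  Injectivity of `ℂ ⊗[ℚ̄] FN N → LG Γ`: ROUTE 1 (algebraic): `R = ℂ ⊗[ℚ̄] FN N` is a domain
(`S27.H.isDomain_tensorProduct_of_isAlgClosed`); every element `r` of `R` is algebraic over `ℂ[j]` (as `FN N` is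
algebraic over `ℚ̄(j)`: `S24.Export.finiteDimensional`); if `0 ≠ r` is in the kernel, the constant term `a₀(j) ≠ 0` of a minimal relation
is in the kernel, contradicting `transcendental_jC`.  ROUTE 2 (expansions): `ℚ̄`-linearly independent `b i : FN N` have
`ℚ̄`-linearly independent expansions `phi1 N (b i) = texpL N (Psi N (b i)) : ℚ̄((t))`; their images in `ℂ((t))` under
`coeffMap iota` are `ℂ`-linearly independent (write the complex coefficients in a `ℚ̄`-basis of their span), and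
`texpCL` of `PsiG (b i)` is `qExpand (M / N)` of that (`HasTExpC.of_hasTExp`, uniqueness). -/

theorem adjoin_range_algebraMap_FC (hΓ : Γ ≤ Gamma N) :
    IntermediateField.adjoin ℂ (Set.range (algebraMap (FN N) (FC hΓ))) = ⊤ := by
  apply IntermediateField.map_injective (FC hΓ).val
  rw [IntermediateField.adjoin_map, ← AlgHom.fieldRange_eq_map, IntermediateField.fieldRange_val]
  have : (FC hΓ).val '' Set.range (algebraMap (FN N) (FC hΓ)) = Set.range (PsiG hΓ) := by
    rw [← Set.range_comp]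
    rfl
  rw [this]
  rfl

instance instIsConstExt_FC [Γ.FiniteIndex] (hΓ : Γ ≤ Gamma N) : IsConstExt Kbar (FN N) ℂ (FC hΓ) := by
  have h0 : FiniteDimensional Kbar⟮jF N⟯ (FN N) := Fermat.Agent.S24.Export.finiteDimensional N
  have : Algebra.IsAlgebraic Kbar⟮jF N⟯ (FN N) := Algebra.IsAlgebraic.of_finite _ _
  exact isConstExt_of_injective_of_adjoin _ _ _ _
    (mulMap_injective_of_transcendental Kbar (FN N) ℂ (FC hΓ) (jF N) (transcendental_jC hΓ))
    (adjoin_range_algebraMap_FC hΓ)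

end Fermat.Agent.NV2
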