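/-
Cluster GAL, block NV2 (owner of the skeleton: helper91).  TASK NV2-P1 (proofs: helper49).

Expansion data at all points of `X(1)(ℂ)`.  Model: `S24/B/Points.lean`.
-/
import Fermat.Agent.NV2.FC
import Fermat.Agent.S24.B.Points

set_option autoImplicit false

namespace Fermat.Agent.NV2

open UpperHalfPlane Filter Topology Fermat.Agent.S24 Fermat.Agent.S24.B Fermat.Agent.S24.FF
  CongruenceSubgroup IntermediateField AlgebraicCurve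
open scoped MatrixGroups Real Manifold

variable {N : ℕ} [NeZero N] {Γ : Subgroup SL(2, ℤ)} [Γ.Normal]

/-- The set `{S, S T, T}`. -/
def STT : Set SL(2, ℤ) := {ModularGroup.S, ModularGroup.S * ModularGroup.T, ModularGroup.T}

omit [Γ.Normal] in
theorem val_jC_sub (hΓ : Γ ≤ Gamma N) (c : ℂ) :
    (FC hΓ).val (jC hΓ - algebraMap ℂ (FC hΓ) c) =
      algebraMap (AG Γ) (LG Γ) (jG Γ - algebraMap ℂ (AG Γ) c) := by
  rw [map_sub, map_sub, AlgHom.commutes, ← IsScalarTower.algebraMap_apply ℂ (AG Γ) (LG Γ)]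
  congr 1
  exact coe_jC hΓ

/-- model: `S24.B.pointDatum_of_fixed`. -/
theorem expDatum_of_fixed (hΓ : Γ ≤ Gamma N) (τ₀ : ℍ) (δ : SL(2, ℤ)) (E : ℕ) (hE : 0 < E)
    (μ : ℂˣ) (hμ : IsPrimitiveRoot μ E)
    (hδ : ∀ᶠ w in 𝓝 (0 : ℂ),
      δ⁻¹ • ofComplex (discInv τ₀ w) = ofComplex (discInv τ₀ ((μ : ℂ) * w)))
    (hord : ordAt τ₀ (fun τ => jfun τ - jfun τ₀) = (E : ℕ∞)) :
    IsExpDatum (FC hΓ).val (jC hΓ - algebraMap ℂ (FC hΓ) (jfun τ₀)) δ E (wexpL Γ τ₀) μ where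
  E_pos := hE
  φ_const := wexpL_algebraMap_complex τ₀
  prim := hμ
  φ_smul := wexpL_smul τ₀ δ μ hδ
  order_y := by
    rw [val_jC_sub, wexpL_algebraMap]
    apply order_ofPowerSeries
    rw [order_wexp, ← hord]
    rfl

theorem expDatum_generic (hΓ : Γ ≤ Gamma N) (c : ℂ) (h0 : c ≠ 0) (h1 : c ≠ 1728) :
    ∃ (φ : LG Γ →+* LaurentSeries ℂ) (ζ : ℂˣ),
      IsExpDatum (FC hΓ).val (jC hΓ - algebraMap ℂ (FC hΓ) c) (1 : SL(2, ℤ)) 1 φ ζ := by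
  obtain ⟨τ₀, rfl⟩ := Stubs.jfun_surjective c
  refine ⟨_, _, expDatum_of_fixed hΓ τ₀ 1 1 one_pos 1 IsPrimitiveRoot.one ?_ ?_⟩
  · refine Filter.Eventually.of_forall fun w => ?_
    rw [inv_one, one_smul, Units.val_one, one_mul]
  · rw [Nat.cast_one]
    exact Stubs.ordAt_jfun_generic τ₀ h0 h1

theorem expDatum_I (hΓ : Γ ≤ Gamma N) :
    ∃ (φ : LG Γ →+* LaurentSeries ℂ) (ζ : ℂˣ),
      IsExpDatum (FC hΓ).val (jC hΓ - algebraMap ℂ (FC hΓ) 1728) ModularGroup.S 2 φ ζ := by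
  have h := expDatum_of_fixed hΓ UpperHalfPlane.I ModularGroup.S 2 two_pos (-1)
    isPrimitiveRoot_neg_one (by simpa using S_inv_discInv)
    (by rw [Stubs.jfun_I]; exact Stubs.ordAt_jfun_I)
  rw [Stubs.jfun_I] at h
  exact ⟨_, _, h⟩

theorem expDatum_rho (hΓ : Γ ≤ Gamma N) :
    ∃ (φ : LG Γ →+* LaurentSeries ℂ) (ζ : ℂˣ),
      IsExpDatum (FC hΓ).val (jC hΓ - algebraMap ℂ (FC hΓ) 0)
        (ModularGroup.S * ModularGroup.T) 3 φ ζ := by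
  have h := expDatum_of_fixed hΓ rho (ModularGroup.S * ModularGroup.T) 3 (by norm_num)
    (Units.mk0 (rho : ℂ) rho_ne_zero) isPrimitiveRoot_rho ST_inv_discInv
    (by rw [Stubs.jfun_rho]; simpa using Stubs.ordAt_jfun_rho)
  rw [Stubs.jfun_rho] at h
  exact ⟨_, _, h⟩

/-- with `φ = texpCL hM`, `ζ = (zetaC M)⁻¹`. -/
theorem expDatum_infty (hΓ : Γ ≤ Gamma N) {M : ℕ} [NeZero M] (hM : ModularGroup.T ^ M ∈ Γ) :
    ∃ (φ : LG Γ →+* LaurentSeries ℂ) (ζ : ℂˣ),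
      IsExpDatum (FC hΓ).val (jC hΓ)⁻¹ ModularGroup.T M φ ζ := by
  refine ⟨texpCL hM, (zetaC M)⁻¹, Nat.pos_of_ne_zero (NeZero.ne M), texpCL_algebraMap_complex hM,
    (isPrimitiveRoot_zetaC M).inv, texpCL_T_smul hM, ?_⟩
  have h : (FC hΓ).val (jC hΓ)⁻¹ = (algebraMap (AG Γ) (LG Γ) (jG Γ))⁻¹ := by
    rw [map_inv₀]
    congr 1
    exact coe_jC hΓ
  rw [h]
  exact order_texpCL_jG_inv hM

theorem exists_T_pow_mem [Γ.FiniteIndex] : ∃ M : ℕ, 0 < M ∧ ModularGroup.T ^ M ∈ Γ :=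
  ⟨Γ.index, Nat.pos_of_ne_zero Subgroup.FiniteIndex.index_ne_zero, Γ.pow_index_mem _⟩

theorem hasData_FC [Γ.FiniteIndex] (hΓ : Γ ≤ Gamma N) : HasData (jC hΓ) (FC hΓ).val STT := by
  rintro σ (rfl | rfl | rfl)
  · obtain ⟨φ, ζ, h⟩ := expDatum_I hΓ
    exact ⟨_, _, φ, ζ, adjoin_simple_sub_const _ _, h⟩
  · obtain ⟨φ, ζ, h⟩ := expDatum_rho hΓ
    exact ⟨_, _, φ, ζ, adjoin_simple_sub_const _ _, h⟩
  · obtain ⟨M, hM0, hM⟩ := exists_T_pow_mem (Γ := Γ)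
    have : NeZero M := ⟨hM0.ne'⟩
    obtain ⟨φ, ζ, h⟩ := expDatum_infty hΓ hM
    exact ⟨_, _, φ, ζ, adjoin_simple_inv _, h⟩

/-- a place `v` has `ord_v j < 0`, or `0 < ord_v (j - c)` for some `c : ℂ`
(`S24.FF.exists_const_of_ord_nonneg`, `isFF1_FC`). -/
theorem covers_FC [Γ.FiniteIndex] (hΓ : Γ ≤ Gamma N) : Covers (jC hΓ) (FC hΓ).val STT := by
  intro v
  have := isFF1_FC hΓ
  rcases lt_or_ge (v.ord (jC hΓ)) 0 with hneg | hnn
  · obtain ⟨M, hM0, hM⟩ := exists_T_pow_mem (Γ := Γ)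
    have : NeZero M := ⟨hM0.ne'⟩
    obtain ⟨φ, ζ, h⟩ := expDatum_infty hΓ hM
    refine ⟨_, _, _, φ, ζ, Or.inr (Or.inr (Or.inr rfl)), adjoin_simple_inv _, h, ?_⟩
    rw [Place.ord_inv]
    omega
  · obtain ⟨c, hc | hc⟩ := exists_const_of_ord_nonneg v hnn
    · exact absurd (hc ▸ isAlgebraic_algebraMap c) (transcendental_jC hΓ)
    · by_cases h0 : c = 0
      · subst h0
        obtain ⟨φ, ζ, h⟩ := expDatum_rho hΓ
        exact ⟨_, _, _, φ, ζ, Or.inr (Or.inr (Or.inl rfl)), adjoin_simple_sub_const _ _, h, hc⟩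
      · by_cases h1 : c = 1728
        · subst h1
          obtain ⟨φ, ζ, h⟩ := expDatum_I hΓ
          exact ⟨_, _, _, φ, ζ, Or.inr (Or.inl rfl), adjoin_simple_sub_const _ _, h, hc⟩
        · obtain ⟨φ, ζ, h⟩ := expDatum_generic hΓ c h0 h1
          exact ⟨_, _, _, φ, ζ, Or.inl rfl, adjoin_simple_sub_const _ _, h, hc⟩

end Fermat.Agent.NV2
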