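/-
Cluster GAL, block NV2 (owner of the skeleton: helper91).  TASK NV2-H1.

The characters `Γ₀(N) → ℂˣ` of exponent `n` trivial on parabolic/elliptic elements are in bijection with
`S16.Lift.homPE N (ZMod n)`: compose with an isomorphism `ZMod n ≃ μ_n(ℂ)`, `a ↦ ζ^a`, `ζ = exp (2 π i / n)`
(`IsPrimitiveRoot.zmodEquivZPowers`, `Complex.isPrimitiveRoot_exp`, `IsPrimitiveRoot.zpowers_eq`).
-/
import Fermat.Agent.NV2.Points
import Fermat.Agent.S16.Lift.Count

set_option autoImplicit false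

namespace Fermat.Agent.NV2

open CongruenceSubgroup Fermat.Agent.S16.Lift
open scoped MatrixGroups

section abstract

variable {G : Type*} [Group G] {A : Type*} [AddCommGroup A] {M : Type*} [CommGroup M]
  (Z : Subgroup M) (E : A ≃+ Additive Z)

/-- The character attached to an additive homomorphism. -/
def charOfHom (φ : Additive G →+ A) : G →* M where
  toFun γ := ((Additive.toMul (E (φ (Additive.ofMul γ))) : Z) : M)
  map_one' := by simp
  map_mul' := by intro a b; simp

/-- The additive homomorphism attached to a character with values in `Z`. -/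
def homOfChar (χ : G →* M) (h : ∀ η, χ η ∈ Z) : Additive G →+ A where
  toFun x := E.symm (Additive.ofMul (⟨χ (Additive.toMul x), h _⟩ : Z))
  map_zero' := by
    have : (⟨χ (Additive.toMul (0 : Additive G)), h _⟩ : Z) = 1 := by
      apply Subtype.ext; simp
    rw [this]; simp
  map_add' := by
    intro a b
    have : (⟨χ (Additive.toMul (a + b)), h _⟩ : Z) =
        ⟨χ (Additive.toMul a), h _⟩ * ⟨χ (Additive.toMul b), h _⟩ := by
      apply Subtype.ext; simp
    rw [this, ofMul_mul, map_add]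

include E in
theorem card_char_eq_card_hom (P : Set G) :
    Nat.card {χ : G →* M // (∀ η, χ η ∈ Z) ∧ ∀ η ∈ P, χ η = 1} =
      Nat.card {φ : Additive G →+ A // ∀ η ∈ P, φ (Additive.ofMul η) = 0} := by
  refine Nat.card_congr
    { toFun := fun χ => ⟨homOfChar Z E χ.1 χ.2.1, ?_⟩
      invFun := fun φ => ⟨charOfHom Z E φ.1, ?_, ?_⟩
      left_inv := ?_
      right_inv := ?_ }
  · intro η hη
    have h1 : (⟨χ.1 η, χ.2.1 η⟩ : Z) = 1 := Subtype.ext (χ.2.2 η hη)
    show E.symm (Additive.ofMul (⟨χ.1 η, χ.2.1 η⟩ : Z)) = 0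
    rw [h1]; simp
  · intro η
    exact (Additive.toMul (E (φ.1 (Additive.ofMul η))) : Z).2
  · intro η hη
    show ((Additive.toMul (E (φ.1 (Additive.ofMul η))) : Z) : M) = 1
    rw [φ.2 η hη]; simp
  · intro χ
    apply Subtype.ext
    ext η
    show ((Additive.toMul (E (E.symm (Additive.ofMul (⟨χ.1 η, χ.2.1 η⟩ : Z)))) : Z) : M) = χ.1 η
    simp
  · intro φ
    apply Subtype.ext
    refine AddMonoidHom.ext fun x => ?_
    show E.symm (Additive.ofMul (⟨((Additive.toMul (E (φ.1 x)) : Z) : M), _⟩ : Z)) = φ.1 x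
    exact E.symm_apply_apply _

end abstract

theorem card_isPEChar_eq_card_homPE (N : ℕ) [NeZero N] (n : ℕ) (hn : 0 < n) :
    Nat.card {χ : Gamma0 N →* ℂˣ // IsPEChar (Gamma0 N) STT n χ} = Nat.card (homPE N (ZMod n)) := by
  have : NeZero n := ⟨hn.ne'⟩
  have hζ : IsPrimitiveRoot (Complex.exp (2 * Real.pi * Complex.I / n)) n :=
    Complex.isPrimitiveRoot_exp n hn.ne'
  have hζu := hζ.isUnit_unit hn.ne'
  set ζ : ℂˣ := (hζ.isUnit hn.ne').unit with hζdef
  have hZ : Subgroup.zpowers ζ = rootsOfUnity n ℂ := hζu.zpowers_eq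
  set P : Set (Gamma0 N) := {η | ∃ σ ∈ ({ModularGroup.S, ModularGroup.S * ModularGroup.T,
    ModularGroup.T} : Set SL(2, ℤ)), ∃ (k : ℕ) (g : SL(2, ℤ)), (η : SL(2, ℤ)) = g⁻¹ * σ ^ k * g}
    with hP
  have key := card_char_eq_card_hom (G := Gamma0 N) (Subgroup.zpowers ζ) hζu.zmodEquivZPowers P
  have h1 : Nat.card {χ : Gamma0 N →* ℂˣ // IsPEChar (Gamma0 N) STT n χ} =
      Nat.card {χ : Gamma0 N →* ℂˣ // (∀ η, χ η ∈ Subgroup.zpowers ζ) ∧ ∀ η ∈ P, χ η = 1} := by
    refine Nat.card_congr (Equiv.subtypeEquivRight fun χ => ?_)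
    rw [hZ]
    constructor
    · rintro ⟨ha, hb⟩
      refine ⟨fun η => (mem_rootsOfUnity _ _).mpr (ha η), fun η hη => hb η ⟨η.2, hη⟩⟩
    · rintro ⟨ha, hb⟩
      refine ⟨fun η => (mem_rootsOfUnity _ _).mp (ha η), fun η hη => hb η hη.2⟩
  have h2 : Nat.card (homPE N (ZMod n)) =
      Nat.card {φ : Additive (Gamma0 N) →+ ZMod n // ∀ η ∈ P, φ (Additive.ofMul η) = 0} := by
    refine Nat.card_congr (Equiv.subtypeEquivRight fun φ => ?_)
    constructor
    · intro h η hη
      exact h (Additive.ofMul η) hη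
    · intro h x hx
      exact h (Additive.toMul x) hx
  rw [h1, h2, key]

end Fermat.Agent.NV2
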