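/-
Cluster GAL, block NV2 (owner helper91).  Assembly.

`card_torsion_FN : #Pic⁰(X₀(N)/ℚ̄)[n] = #Hom_{par,ell}(Γ₀(N), ℤ/n) = n ^ (2 dim S₂(Γ₀(N)))`.
-/
import Fermat.Agent.NV2.Abs.Kummer
import Fermat.Agent.NV2.Roots
import Fermat.Agent.NV2.Eis
import Fermat.Agent.NV2.Group
import Fermat.Agent.NV2.HomPE
import Fermat.Agent.S27.H.Rigidity
import Fermat.Agent.S27.H.PartB

set_option autoImplicit false

namespace Fermat.Agent.NV2

open UpperHalfPlane Fermat.Agent.S24 Fermat.Agent.S24.B Fermat.Agent.S24.FF CongruenceSubgroup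
  IntermediateField AlgebraicCurve Fermat.Agent.S27.H Fermat.Agent.S16.Lift
open scoped MatrixGroups

variable (N : ℕ) [NeZero N] (n : ℕ)

/-- The complex case. -/
theorem card_torsion_FC [NeZero n] :
    Nat.card (Pic0.torsion ℂ (FC (GNn_le_Gamma N n)) n) = Nat.card (homPE N (ZMod n)) := by
  have hn : 0 < n := Nat.pos_of_ne_zero (NeZero.ne n)
  have hΓ := GNn_le_Gamma N n
  have := finiteDimensional_FC hΓ
  rw [← card_isPEChar_eq_card_homPE N n hn]
  exact card_torsion_eq_card_char (transcendental_jC hΓ) (isUniformization_FC hΓ) (covers_FC hΓ)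
    (hasData_FC hΓ) n hn
    (fun u hu hdvd => exists_root_LG hΓ hn (fun χ hχ η hη => char_eq_one_of_mem_GNn χ hχ η hη)
      u hu hdvd)
    (fun χ hχ => exists_hasChar hΓ hn (fun χ hχ η hη => char_eq_one_of_mem_GNn χ hχ η hη) χ hχ)

/-- **Main result of block NV2.** -/
theorem card_torsion_FN (hn : 0 < n) :
    Nat.card (Pic0.torsion Kbar (FN N) n) = Nat.card (homPE N (ZMod n)) := by
  have : NeZero n := ⟨hn.ne'⟩
  have hΓ := GNn_le_Gamma N n
  have := isFF1_FC hΓ
  have := Export.isFF1 N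
  have hcard := card_torsion_FC N n
  have hpos : 0 < Nat.card (homPE N (ZMod n)) := by
    rw [card_homPE N n hn]
    positivity
  have hfin : Finite (Pic0.torsion ℂ (FC hΓ) n) := by
    apply Nat.finite_of_card_ne_zero
    rw [hcard]
    exact hpos.ne'
  rw [← hcard]
  exact card_torsion_eq Kbar (FN N) ℂ (FC hΓ) ⟨jF N, Formal.transcendental_jF N⟩
    (riemannThm ℂ (FC hΓ) ⟨jC hΓ, transcendental_jC hΓ⟩) n hfin

theorem card_torsion_FN' (hn : 0 < n) :
    Nat.card (Pic0.torsion Kbar (FN N) n) =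
      n ^ (2 * Module.finrank ℂ (CuspForm (Gamma0 N) 2)) := by
  rw [card_torsion_FN N n hn, card_homPE N n hn]

end Fermat.Agent.NV2
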