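/-
Cluster GAL, block NV2 (owner helper91).  Consumer form of the result of block NV2:
`#W_n = #Hom_{par,ell}(Γ₀(N), ℤ/n)`, hence every injective map `W_n → Hom_{par,ell}(Γ₀(N), ℤ/n)` is bijective.
-/
import Fermat.Agent.NV2.Final
import Fermat.Agent.NV2.CardW

set_option autoImplicit false

namespace Fermat.Agent.NV2

open Fermat.Agent.S24 Fermat.Agent.GAL Fermat.Agent.S16.Lift CongruenceSubgroup

theorem card_W (N : ℕ) [NeZero N] (n : ℕ) (hn : 0 < n) :
    Nat.card (E.W N n) = Nat.card (homPE N (ZMod n)) := by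
  rw [card_W_eq_card_torsion N n hn, card_torsion_FN N n hn]

theorem finite_homPE (N : ℕ) [NeZero N] (n : ℕ) (hn : 0 < n) : Finite (homPE N (ZMod n)) :=
  Nat.finite_of_card_ne_zero (by rw [card_homPE N n hn]; exact pow_ne_zero _ hn.ne')

theorem finite_W (N : ℕ) [NeZero N] (n : ℕ) (hn : 0 < n) : Finite (E.W N n) :=
  Nat.finite_of_card_ne_zero (by
    rw [card_W N n hn, card_homPE N n hn]; exact pow_ne_zero _ hn.ne')

/-- An injective map from the Kummer model to `Hom_{par,ell}` is bijective. -/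
theorem bijective_of_injective (N : ℕ) [NeZero N] (n : ℕ) (hn : 0 < n)
    (μ : E.W N n → homPE N (ZMod n)) (hμ : Function.Injective μ) : Function.Bijective μ := by
  have := finite_homPE N n hn
  have := finite_W N n hn
  exact (Nat.bijective_iff_injective_and_card μ).mpr ⟨hμ, card_W N n hn⟩

/-- The same for an additive map to `Hom(Γ₀(N), ℤ/n)` with values in `homPE`. -/
theorem exists_eq_of_injective (N : ℕ) [NeZero N] (n : ℕ) (hn : 0 < n)
    (μ : E.W N n →+ (Additive (Gamma0 N) →+ ZMod n)) (hμ : Function.Injective μ)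
    (hPE : ∀ w, μ w ∈ homPE N (ZMod n)) (χ : Additive (Gamma0 N) →+ ZMod n)
    (hχ : χ ∈ homPE N (ZMod n)) : ∃ w, μ w = χ := by
  obtain ⟨w, hw⟩ := (bijective_of_injective N n hn (fun w => ⟨μ w, hPE w⟩)
    (fun a b hab => hμ (congrArg Subtype.val hab))).2 ⟨χ, hχ⟩
  exact ⟨w, congrArg Subtype.val hw⟩

end Fermat.Agent.NV2
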